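import Fermat.Agent.ClassField.SumIntegral
import Fermat.Agent.ClassField.ConeWeight
import Fermat.Agent.Arith.Density.DegreeOne
import Mathlib.NumberTheory.NumberField.Discriminant.Basic

/-!
Partial zeta functions of ideal classes near `s = 1`: they agree up to a bounded error.
-/

noncomputable section

open NumberField NumberField.InfinitePlace NumberField.mixedEmbedding
  NumberField.mixedEmbedding.fundamentalCone Module MeasureTheory
  Filter Topology

open scoped nonZeroDivisors Classical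

namespace Fermat.Agent.ClassField

variable (K : Type*) [Field K] [NumberField K]

/-- The partial zeta function of an ideal class. -/
def classZeta (C : ClassGroup (𝓞 K)) (s : ℝ) : ℝ :=
  ∑' I : {I : (Ideal (𝓞 K))⁰ // ClassGroup.mk0 I = C}, (Ideal.absNorm I.1.1 : ℝ) ^ (-s)

/-- The zeta function as a sum over nonzero ideals. -/
def idealZeta (s : ℝ) : ℝ := ∑' I : (Ideal (𝓞 K))⁰, (Ideal.absNorm I.1 : ℝ) ^ (-s)

/-- The summand away from the origin. -/
def farTerm (s : ℝ) (x : mixedSpace K) : ℝ := if 1 ≤ ‖x‖ then term K s x else 0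

variable {K}

lemma farTerm_nonneg (s : ℝ) (x : mixedSpace K) : 0 ≤ farTerm K s x := by
  unfold farTerm; split_ifs
  exacts [term_nonneg s x, le_rfl]

variable (K) in
lemma exists_farTerm_le :
    ∃ M : ℝ, 0 ≤ M ∧ ∀ x : mixedSpace K, ∀ s ∈ Set.Icc (1 : ℝ) 2,
      farTerm K s x ≤ M * (1 + ‖x‖) ^ (-((finrank ℚ K : ℝ) * s)) := by
  obtain ⟨κ, hκ, hκ1, hsupp⟩ := exists_support_bound K
  set n := finrank ℚ K
  refine ⟨(κ / 2) ^ (-((n : ℝ) * 2)), by positivity, fun x s hs ↦ ?_⟩
  have hp : (0 : ℝ) ≤ (1 + ‖x‖) ^ (-((n : ℝ) * s)) := Real.rpow_nonneg (by positivity) _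
  unfold farTerm
  split_ifs with h1
  swap
  · exact mul_nonneg (Real.rpow_nonneg (by positivity) _) hp
  by_cases hw : weight K x = 0
  · rw [term, hw, zero_mul]; exact mul_nonneg (Real.rpow_nonneg (by positivity) _) hp
  have hN : ((κ / 2) * (1 + ‖x‖)) ^ n ≤ mixedEmbedding.norm x :=
    pow_le_norm (by positivity) fun w ↦ le_trans (by nlinarith) (hsupp x hw w)
  refine (mul_le_of_le_one_left (Real.rpow_nonneg (mixedEmbedding.norm_nonneg x) _)
    (weight_le_one x)).trans ?_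
  refine (Real.rpow_le_rpow_of_nonpos (by positivity) hN (by linarith [hs.1])).trans ?_
  rw [← Real.rpow_natCast, ← Real.rpow_mul (by positivity), ← neg_mul_eq_mul_neg,
    Real.mul_rpow (by positivity) (by positivity)]
  refine mul_le_mul_of_nonneg_right ?_ hp
  exact Real.rpow_le_rpow_of_exponent_ge (by positivity) (by linarith)
    (neg_le_neg (mul_le_mul_of_nonneg_left hs.2 (Nat.cast_nonneg _)))

variable (K) in
lemma exists_farTerm_bound :
    ∃ M : ℝ, ∀ s ∈ Set.Icc (1 : ℝ) 2, ∀ x : mixedSpace K, farTerm K s x ≤ M := by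
  obtain ⟨M, hM, hMle⟩ := exists_farTerm_le K
  refine ⟨M, fun s hs z ↦ (hMle z s hs).trans (mul_le_of_le_one_right hM
    (Real.rpow_le_one_of_one_le_of_nonpos (le_add_of_nonneg_right (norm_nonneg z))
      (neg_nonpos.mpr (mul_nonneg (Nat.cast_nonneg _) (zero_le_one.trans hs.1)))))⟩

lemma continuousWithinAt_term (x : mixedSpace K) :
    ContinuousWithinAt (fun s ↦ term K s x) (Set.Icc 1 2) 1 := by
  by_cases hN : mixedEmbedding.norm x = 0
  · have : ∀ s, term K s x = 0 := fun s ↦ by simp [term, weight, hN]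
    simp only [this]
    exact continuousWithinAt_const
  · refine ((Real.continuousAt_const_rpow hN).comp continuousAt_neg).const_mul _ |>.continuousWithinAt

lemma continuousWithinAt_farTerm (x : mixedSpace K) :
    ContinuousWithinAt (fun s ↦ farTerm K s x) (Set.Icc 1 2) 1 := by
  by_cases h : 1 ≤ ‖x‖
  · simpa only [farTerm, if_pos h] using continuousWithinAt_term x
  · simpa only [farTerm, if_neg h] using continuousWithinAt_const

variable (K) in
lemma exists_farTerm_osc (r : ℝ) (hr : 0 < r) :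
    ∃ C : ℝ, ∀ s ∈ Set.Icc (1 : ℝ) 2, ∀ x y : mixedSpace K, ‖y - x‖ ≤ r →
      |farTerm K s y - farTerm K s x| ≤ C * decay x := by
  obtain ⟨M, hMle⟩ := exists_farTerm_bound K
  have hM : 0 ≤ M := (farTerm_nonneg 1 0).trans (hMle 1 (Set.left_mem_Icc.mpr one_le_two) 0)
  obtain ⟨C, R, hC, hR, hosc⟩ := exists_oscillation_bound K r hr
  set n := finrank ℚ K with hn
  set R' := 2 * (R + r + 1)
  refine ⟨M * (1 + R') ^ ((n : ℝ) + 1) + C * (2 : ℝ) ^ (n + 1), fun s hs x y hy ↦ ?_⟩
  have hdec : decay x = (1 + ‖x‖) ^ (-((n : ℝ) + 1)) := by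
    rw [decay, mixedEmbedding.finrank]
  have hd : 0 ≤ decay x := decay_nonneg x
  have hbd : ∀ z, farTerm K s z ≤ M := hMle s hs
  by_cases hx : ‖x‖ ≤ R'
  · refine le_trans ?_ (mul_le_mul_of_nonneg_right (le_add_of_nonneg_right (by positivity)) hd)
    refine (abs_sub_le_iff.mpr ⟨?_, ?_⟩ : _ ≤ M).trans ?_
    · linarith [hbd y, farTerm_nonneg s x]
    · linarith [hbd x, farTerm_nonneg s y]
    rw [hdec, mul_assoc, Real.rpow_neg (by positivity), ← div_eq_mul_inv]
    refine le_mul_of_one_le_right hM ?_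
    rw [one_le_div (by positivity)]
    exact Real.rpow_le_rpow (by positivity) (by linarith) (by positivity)
  · replace hx := not_le.mp hx
    refine le_trans ?_ (mul_le_mul_of_nonneg_right (le_add_of_nonneg_left (by positivity)) hd)
    have hy1 : ‖x‖ - r ≤ ‖y‖ := by
      have := norm_sub_norm_le x y; rw [norm_sub_rev] at this; linarith
    have hfy : farTerm K s y = term K s y := if_pos (by linarith)
    have hfx : farTerm K s x = term K s x := if_pos (by linarith)
    have key : ∀ z : mixedSpace K, (1 + ‖x‖) / 2 ≤ ‖z‖ →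
        C / ‖z‖ ^ (n + 1) ≤ C * (2 : ℝ) ^ (n + 1) * decay x := by
      intro z hz
      have h0 : (0 : ℝ) < (1 + ‖x‖) / 2 := by positivity
      refine (div_le_div_of_nonneg_left hC (pow_pos h0 _) (pow_le_pow_left₀ h0.le hz _)).trans_eq ?_
      rw [hdec, ← Nat.cast_one (R := ℝ), ← Nat.cast_add, Real.rpow_neg (by positivity),
        Real.rpow_natCast, Nat.cast_one, div_pow]
      field_simp
    rw [hfy, hfx]
    by_cases hwx : weight K x = 0
    · by_cases hwy : weight K y = 0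
      · simp only [term, hwx, hwy, zero_mul, sub_self, abs_zero]; positivity
      · rw [abs_sub_comm]
        refine (hosc y x (by linarith) hwy (by rwa [norm_sub_rev]) s hs).trans (key y ?_)
        linarith
    · exact (hosc x y (by linarith) hwx hy s hs).trans (key x (by linarith))

lemma measurable_farTerm (s : ℝ) : Measurable (farTerm K s) := by
  have hlog : Measurable (logMap : mixedSpace K → _) := by
    unfold logMap
    exact measurable_pi_iff.mpr fun w ↦ measurable_const.mul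
      ((continuous_normAtPlace _).measurable.log.sub <|
        (mixedEmbedding.continuous_norm _).measurable.log.mul measurable_const)
  have hc : Continuous (coordEquiv K) := (coordEquiv K).toLinearMap.continuous_of_finiteDimensional
  have hN : Measurable (mixedEmbedding.norm : mixedSpace K → ℝ) :=
    (mixedEmbedding.continuous_norm K).measurable
  have hhat : Continuous hat := continuous_const.max (continuous_const.sub continuous_abs)
  have hw : Measurable (weight K) := by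
    unfold weight
    refine Measurable.ite (measurableSet_eq_fun hN measurable_const) measurable_const ?_
    exact Finset.measurable_prod _ fun i _ ↦
      (hhat.measurable.comp ((measurable_pi_apply i).comp (hc.measurable.comp hlog)))
  unfold farTerm
  refine Measurable.ite (measurableSet_le measurable_const measurable_norm) ?_ measurable_const
  exact hw.mul (hN.pow_const _)

lemma integrable_farTerm {s : ℝ} (hs : s ∈ Set.Ioc (1 : ℝ) 2) :
    Integrable (farTerm K s) volume := by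
  obtain ⟨M, hM, hMle⟩ := exists_farTerm_le K
  have : Integrable (fun x : mixedSpace K ↦ M * (1 + ‖x‖) ^ (-((finrank ℚ K : ℝ) * s))) volume := by
    refine (integrable_one_add_norm ?_).const_mul M
    rw [mixedEmbedding.finrank]
    exact lt_mul_of_one_lt_right (Nat.cast_pos.mpr finrank_pos) hs.1
  refine this.mono' (measurable_farTerm s).aestronglyMeasurable (Eventually.of_forall fun x ↦ ?_)
  rw [Real.norm_of_nonneg (farTerm_nonneg s x)]
  exact hMle x s ⟨hs.1.le, hs.2⟩

variable (J : (Ideal (𝓞 K))⁰)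

/-- The lattice of `J`. -/
abbrev lat : Submodule ℤ (mixedSpace K) :=
  mixedEmbedding.idealLattice K (FractionalIdeal.mk0 K J)

lemma mem_lat {x : mixedSpace K} :
    x ∈ lat J ↔ ∃ a : 𝓞 K, a ∈ J.1 ∧ mixedEmbedding K (a : K) = x := by
  rw [mem_idealLattice]
  constructor
  · rintro ⟨y, hy, rfl⟩
    simp only [FractionalIdeal.coe_mk0, FractionalIdeal.mem_coeIdeal,
      SetLike.mem_coe] at hy
    obtain ⟨a, ha, rfl⟩ := hy
    exact ⟨a, ha, rfl⟩
  · rintro ⟨a, ha, rfl⟩
    refine ⟨(a : K), ?_, rfl⟩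
    simp only [FractionalIdeal.coe_mk0, FractionalIdeal.mem_coeIdeal,
      SetLike.mem_coe]
    exact ⟨a, ha, rfl⟩

lemma one_le_norm_of_mem_lat {x : mixedSpace K} (hx : x ∈ lat J) (h0 : x ≠ 0) :
    1 ≤ mixedEmbedding.norm x := by
  obtain ⟨a, -, rfl⟩ := (mem_lat J).mp hx
  have ha : a ≠ 0 := by rintro rfl; simp at h0
  rw [norm_eq_norm, ← Algebra.coe_norm_int, ← Int.cast_abs, Rat.cast_intCast]
  exact_mod_cast Int.one_le_abs (Algebra.norm_ne_zero_iff.mpr ha)

lemma term_le_one_of_mem_lat {s : ℝ} (hs : 0 ≤ s) {x : mixedSpace K} (hx : x ∈ lat J) :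
    term K s x ≤ 1 := by
  by_cases h0 : x = 0
  · rw [h0, term_zero]; exact zero_le_one
  · exact (mul_le_of_le_one_left (Real.rpow_nonneg (mixedEmbedding.norm_nonneg x) _)
      (weight_le_one x)).trans (Real.rpow_le_one_of_one_le_of_nonpos
        (one_le_norm_of_mem_lat J hx h0) (neg_nonpos.mpr hs))

lemma finite_small : {z : lat J | ¬ 1 ≤ ‖(z : mixedSpace K)‖}.Finite := by
  have : DiscreteTopology (lat J).toAddSubgroup := (inferInstance : DiscreteTopology (lat J))
  have h := Metric.finite_isBounded_inter_isClosed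
    (SetLike.isDiscrete_iff_discreteTopology.mpr (inferInstance : DiscreteTopology (lat J)))
    (Metric.isBounded_closedBall (x := (0 : mixedSpace K)) (r := 1))
    (AddSubgroup.isClosed_of_discrete (H := (lat J).toAddSubgroup))
  refine (h.preimage Subtype.val_injective.injOn).subset fun z hz ↦ ?_
  exact ⟨mem_closedBall_zero_iff.mpr (not_le.mp hz).le, z.2⟩

lemma summable_farTerm {s : ℝ} (hs : s ∈ Set.Ioc (1 : ℝ) 2) :
    Summable fun z : lat J ↦ farTerm K s z := by
  obtain ⟨M, -, hMle⟩ := exists_farTerm_le K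
  refine Summable.of_nonneg_of_le (fun z ↦ farTerm_nonneg s _)
    (fun z ↦ hMle z s ⟨hs.1.le, hs.2⟩) ((summable_one_add_norm_rpow _ ?_).mul_left M)
  rw [mixedEmbedding.finrank]
  exact lt_mul_of_one_lt_right (Nat.cast_pos.mpr finrank_pos) hs.1

lemma summable_term {s : ℝ} (hs : s ∈ Set.Ioc (1 : ℝ) 2) :
    Summable fun z : lat J ↦ term K s z := by
  refine (summable_farTerm J hs).congr_cofinite ?_
  filter_upwards [(finite_small J).compl_mem_cofinite] with z hz
  exact if_pos (not_not.mp hz)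

lemma exists_small_bound :
    ∃ B : ℝ, ∀ s ∈ Set.Ioc (1 : ℝ) 2,
      |(∑' z : lat J, term K s z) - ∑' z : lat J, farTerm K s z| ≤ B := by
  set S := (finite_small J).toFinset
  refine ⟨S.card, fun s hs ↦ ?_⟩
  rw [← Summable.tsum_sub (summable_term J hs) (summable_farTerm J hs),
    tsum_eq_sum (s := S) fun z hz ↦ by
      simp only [S, Set.Finite.mem_toFinset, Set.mem_ofPred_eq, not_not] at hz
      rw [farTerm, if_pos hz, sub_self]]
  refine (Finset.abs_sum_le_sum_abs _ _).trans ((Finset.sum_le_card_nsmul _ _ 1 fun z hz ↦ ?_).trans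
    (by simp))
  have hz' : ¬ 1 ≤ ‖(z : mixedSpace K)‖ := (finite_small J).mem_toFinset.mp hz
  rw [farTerm, if_neg hz', sub_zero, abs_of_nonneg (term_nonneg s _)]
  exact term_le_one_of_mem_lat J (by linarith [hs.1]) z.2

variable (K) in
lemma exists_approx :
    ∃ c : ℝ, 0 < c ∧ ∀ J : (Ideal (𝓞 K))⁰, ∃ B : ℝ, ∀ᶠ s in 𝓝[>] (1 : ℝ),
      |c * (Ideal.absNorm J.1 : ℝ) * (∑' z : lat J, term K s z) -
        ∫ x, farTerm K s x| ≤ B := by
  refine ⟨(2⁻¹) ^ nrComplexPlaces K * √|discr K|, mul_pos (by positivity)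
    (Real.sqrt_pos_of_pos <| abs_pos.mpr (Int.cast_ne_zero.mpr (discr_ne_zero K))), fun J ↦ ?_⟩
  set c : ℝ := (2⁻¹) ^ nrComplexPlaces K * √|discr K| * (Ideal.absNorm J.1 : ℝ)
  obtain ⟨r, hr, hlim⟩ := exists_tendsto_tsum_sub_integral (lat J) volume
  obtain ⟨C, hC⟩ := exists_farTerm_osc K r hr
  obtain ⟨M, hM⟩ := exists_farTerm_bound K
  obtain ⟨l, hl⟩ := hlim 0 C M (farTerm K) (fun s hs ↦ integrable_farTerm hs)
    (fun s hs ↦ by simpa using summable_farTerm J hs) (fun s _ ↦ measurable_farTerm s)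
    (fun s hs x ↦ by rw [abs_of_nonneg (farTerm_nonneg s x)]; exact hM s hs x)
    continuousWithinAt_farTerm hC
  obtain ⟨B', hB'⟩ := exists_small_bound J
  have hcov : ZLattice.covolume (lat J) = c := by
    rw [covolume_idealLattice, FractionalIdeal.coe_mk0, FractionalIdeal.coeIdeal_absNorm,
      Rat.cast_natCast]
    ring
  simp only [zero_add, hcov] at hl
  refine ⟨|l| + 1 + c * B', ?_⟩
  filter_upwards [hl.abs.eventually (eventually_le_nhds (lt_add_one |l|)),
    Ioc_mem_nhdsGT one_lt_two] with s h hs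
  have h' := mul_le_mul_of_nonneg_left (hB' s hs) (by positivity : 0 ≤ c)
  rw [← abs_of_nonneg (by positivity : 0 ≤ c), ← abs_mul, abs_of_nonneg (by positivity : 0 ≤ c),
    mul_sub] at h'
  have := abs_sub_le (c * ∑' z : lat J, term K s z) (c * ∑' z : lat J, farTerm K s z)
    (∫ x, farTerm K s x)
  linarith

lemma unitSMul_mem_lat (u : (𝓞 K)ˣ) {x : mixedSpace K} (hx : x ∈ lat J) : u • x ∈ lat J := by
  obtain ⟨a, ha, rfl⟩ := (mem_lat J).mp hx
  exact (mem_lat J).mpr ⟨u * a, J.1.mul_mem_left _ ha, by simp [unitSMul_smul]⟩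

/-- `idealSet` times exponents maps into the lattice. -/
def toLat (p : idealSet K J × (Fin (Units.rank K) → ℤ)) : lat J :=
  ⟨unitOfExp K p.2 • (p.1 : mixedSpace K), unitSMul_mem_lat J _ p.1.2.2⟩

lemma toLat_injective : Function.Injective (toLat J) := by
  rintro ⟨a, e⟩ ⟨b, f⟩ h
  simp only [toLat, Subtype.ext_iff] at h
  have hb : ((unitOfExp K f)⁻¹ * unitOfExp K e) • (a : mixedSpace K) = b := by
    rw [mul_smul, h, inv_smul_smul]
  have ht := (unit_smul_mem_iff_mem_torsion a.2.1 _).mp (hb ▸ b.2.1)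
  rw [← Units.dirichletUnitTheorem.logEmbedding_eq_zero_iff, ofMul_mul, ofMul_inv, map_add, map_neg,
    neg_add_eq_zero] at ht
  have hef : (fun i ↦ (f i : ℝ)) = fun i ↦ (e i : ℝ) := by
    rw [← coordEquiv_unitOfExp, ← coordEquiv_unitOfExp, ht]
  have hfe : f = e := funext fun i ↦ by exact_mod_cast congr_fun hef i
  subst hfe
  rw [inv_mul_cancel, one_smul] at hb
  exact Prod.ext (Subtype.ext hb) rfl

lemma exists_toLat_eq {z : lat J} (hz : (z : mixedSpace K) ≠ 0) : ∃ p, toLat J p = z := by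
  have hN : mixedEmbedding.norm (z : mixedSpace K) ≠ 0 := by
    linarith [one_le_norm_of_mem_lat J z.2 hz]
  obtain ⟨u, hu⟩ := exists_unit_smul_mem hN
  obtain ⟨⟨ζ, e⟩, he, -⟩ := Units.exist_unique_eq_mul_prod K u⁻¹
  have hmem : ((ζ : (𝓞 K)ˣ) * u) • (z : mixedSpace K) ∈ idealSet K J :=
    ⟨by rw [mul_smul]; exact torsion_smul_mem_of_mem hu ζ.2, unitSMul_mem_lat J _ z.2⟩
  refine ⟨(⟨_, hmem⟩, e), Subtype.ext ?_⟩
  show unitOfExp K e • (((ζ : (𝓞 K)ˣ) * u) • (z : mixedSpace K)) = z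
  rw [← mul_smul]
  have : unitOfExp K e * ((ζ : (𝓞 K)ˣ) * u) = 1 := by
    rw [← mul_assoc, mul_comm (unitOfExp K e)]
    show (ζ : (𝓞 K)ˣ) * unitOfExp K e * u = 1
    rw [unitOfExp, ← he, inv_mul_cancel]
  rw [this, one_smul]

/-- Fibres of the norm on `idealSet` and on principal ideals times torsion. -/
def normFiberEquiv (n : ℕ) :
    {a : idealSet K J // intNorm (idealSetEquiv K J a).1 = n} ≃
      {p : {I : (Ideal (𝓞 K))⁰ // (J : Ideal (𝓞 K)) ∣ I ∧
        Submodule.IsPrincipal (I : Ideal (𝓞 K))} × (Units.torsion K) //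
          Ideal.absNorm p.1.1.1 = n} :=
  (Equiv.subtypeEquivRight fun a ↦ by rw [← intNorm_idealSetEquiv_apply, Nat.cast_inj]).trans <|
    (idealSetEquivNorm K J n).trans <|
      ((Equiv.prodSubtypeFstEquivSubtypeProd
        (p := fun I : {I : (Ideal (𝓞 K))⁰ // (J : Ideal (𝓞 K)) ∣ I ∧
            Submodule.IsPrincipal (I : Ideal (𝓞 K))} ↦ Ideal.absNorm I.1.1 = n)).trans
        (Equiv.prodCongrLeft fun _ ↦ ((Equiv.subtypeSubtypeEquivSubtypeInter _
          (fun I : (Ideal (𝓞 K))⁰ ↦ Ideal.absNorm I.1 = n)).trans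
          (Equiv.subtypeEquivRight fun _ ↦ and_assoc)))).symm

/-- `idealSet` against principal ideals divisible by `J` times torsion. -/
def idealSetEquivPrincipal :
    idealSet K J ≃ {I : (Ideal (𝓞 K))⁰ // (J : Ideal (𝓞 K)) ∣ I ∧
      Submodule.IsPrincipal (I : Ideal (𝓞 K))} × (Units.torsion K) :=
  Equiv.ofFiberEquiv (normFiberEquiv J)

lemma absNorm_idealSetEquivPrincipal (a : idealSet K J) :
    (Ideal.absNorm (idealSetEquivPrincipal J a).1.1.1 : ℝ) =
      mixedEmbedding.norm (a : mixedSpace K) := by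
  rw [← intNorm_idealSetEquiv_apply, Nat.cast_inj]
  exact Equiv.ofFiberEquiv_map (normFiberEquiv J) a

/-- The partial zeta function of a class, weighted by a bounded function of the norm, as a sum
over the lattice of `J`. -/
lemma hasSum_classWeight {φ : ℕ → ℂ} (hφ : ∀ n, ‖φ n‖ ≤ 1) {C : ClassGroup (𝓞 K)}
    (hJ : ClassGroup.mk0 J = C⁻¹) {s : ℝ} (hs : s ∈ Set.Ioc (1 : ℝ) 2) :
    HasSum (fun I : {I : (Ideal (𝓞 K))⁰ // ClassGroup.mk0 I = C} ↦
        φ (Ideal.absNorm I.1.1) * (((Ideal.absNorm I.1.1 : ℝ) ^ (-s) : ℝ) : ℂ))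
      (((Ideal.absNorm J.1 : ℝ) ^ s : ℝ) * ((∑' z : lat J,
        φ (⌊mixedEmbedding.norm (z : mixedSpace K)⌋₊ / Ideal.absNorm J.1) *
          ((term K s z : ℝ) : ℂ)) / Units.torsionOrder K)) := by
  have hsum : Summable fun z : lat J ↦
      φ (⌊mixedEmbedding.norm (z : mixedSpace K)⌋₊ / Ideal.absNorm J.1) * ((term K s z : ℝ) : ℂ) :=
    Summable.of_norm_bounded (summable_term J hs) fun z ↦ by
      rw [norm_mul, Complex.norm_real, Real.norm_of_nonneg (term_nonneg s _)]
      exact mul_le_of_le_one_left (term_nonneg s _) (hφ _)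
  let tw : mixedSpace K → ℂ := fun x ↦ φ (⌊mixedEmbedding.norm x⌋₊ / Ideal.absNorm J.1)
  set g : idealSet K J → ℂ := fun a ↦
    tw (a : mixedSpace K) * ((mixedEmbedding.norm (a : mixedSpace K) ^ (-s) : ℝ) : ℂ)
  have h1 : HasSum g (∑' z : lat J, tw z * ((term K s z : ℝ) : ℂ)) := by
    have h := ((toLat_injective J).hasSum_iff (fun z hz ↦ ?_)).mpr hsum.hasSum
    · refine h.prod_fiberwise fun a ↦ ?_
      have ha : mixedEmbedding.norm (a : mixedSpace K) ≠ 0 := (norm_pos_of_mem a.2.1).ne'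
      have := ((hasSum_weight_unitSMul ha).mul_right (mixedEmbedding.norm (a : mixedSpace K) ^ (-s)))
      rw [one_mul] at this
      refine ((Complex.hasSum_ofReal.mpr this).mul_left
        (tw (a : mixedSpace K))).congr_fun fun e ↦ ?_
      show tw (unitOfExp K e • (a : mixedSpace K)) *
        ((term K s (unitOfExp K e • (a : mixedSpace K)) : ℝ) : ℂ) = _
      simp only [tw, term, norm_unit_smul]
    · by_cases h0 : (z : mixedSpace K) = 0
      · show tw (z : mixedSpace K) * ((term K s (z : mixedSpace K) : ℝ) : ℂ) = 0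
        rw [h0, term_zero, Complex.ofReal_zero, mul_zero]
      · exact absurd (exists_toLat_eq J h0) hz
  let f : {I : (Ideal (𝓞 K))⁰ // (J : Ideal (𝓞 K)) ∣ I ∧ Submodule.IsPrincipal (I : Ideal (𝓞 K))} →
      ℂ := fun I ↦ φ (Ideal.absNorm (I.1 : Ideal (𝓞 K)) / Ideal.absNorm (J : Ideal (𝓞 K))) *
        (((Ideal.absNorm (I.1 : Ideal (𝓞 K)) : ℝ) ^ (-s) : ℝ) : ℂ)
  have h2 : HasSum (fun p : _ × Units.torsion K ↦ f p.1)
      (∑' z : lat J, tw z * ((term K s z : ℝ) : ℂ)) := by
    rw [← (idealSetEquivPrincipal J).hasSum_iff]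
    refine h1.congr_fun fun a ↦ ?_
    simp only [g, f, tw, Function.comp_apply, ← absNorm_idealSetEquivPrincipal,
      Nat.floor_natCast]
  have : Fintype (Units.torsion K) := Fintype.ofFinite _
  have h3 : HasSum (fun I ↦ (Units.torsionOrder K : ℂ) * f I)
      (∑' z : lat J, tw z * ((term K s z : ℝ) : ℂ)) := by
    refine h2.prod_fiberwise fun I ↦ ?_
    have h := hasSum_fintype (fun _ : Units.torsion K ↦ f I)
    rw [Finset.sum_const, Finset.card_univ, ← Nat.card_eq_fintype_card, nsmul_eq_mul] at h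
    exact h
  have h0 : (Units.torsionOrder K : ℂ) ≠ 0 := Nat.cast_ne_zero.mpr (Units.torsionOrder_ne_zero K)
  have h4 : HasSum f ((∑' z : lat J, tw z * ((term K s z : ℝ) : ℂ)) /
      Units.torsionOrder K) := by
    refine (h3.div_const (Units.torsionOrder K : ℂ)).congr_fun fun I ↦ ?_
    rw [mul_div_cancel_left₀ _ h0]
  have hNpos : 0 < Ideal.absNorm (J : Ideal (𝓞 K)) := Ideal.absNorm_pos_of_nonZeroDivisors J
  let e : {I : (Ideal (𝓞 K))⁰ // ClassGroup.mk0 I = C} ≃
      {I : (Ideal (𝓞 K))⁰ // (J : Ideal (𝓞 K)) ∣ I ∧ Submodule.IsPrincipal (I : Ideal (𝓞 K))} :=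
    Equiv.ofBijective (fun I ↦ ⟨J * I.1, ⟨I.1.1, by simp⟩, by
        rw [← ClassGroup.mk0_eq_one_iff (SetLike.coe_mem _), map_mul, hJ, I.2, inv_mul_cancel]⟩)
      ⟨fun a b h ↦ Subtype.ext (Subtype.ext (mul_left_cancel₀ (nonZeroDivisors.coe_ne_zero J)
          (by simpa only [Submonoid.coe_mul] using congrArg (fun x ↦ (x.1 : Ideal (𝓞 K))) h))),
      fun ⟨⟨I, hI⟩, ⟨I', hI'⟩, hp⟩ ↦ by
        have h' : I' ∈ (Ideal (𝓞 K))⁰ := mem_nonZeroDivisors_of_ne_zero fun h ↦
          nonZeroDivisors.ne_zero hI (by rw [show I = J.1 * I' from hI', h, mul_zero])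
        have heq : J * ⟨I', h'⟩ = (⟨I, hI⟩ : (Ideal (𝓞 K))⁰) := Subtype.ext hI'.symm
        refine ⟨⟨⟨I', h'⟩, ?_⟩, Subtype.ext heq⟩
        have h1 := (ClassGroup.mk0_eq_one_iff hI).mpr hp
        rw [← heq, map_mul, hJ, inv_mul_eq_one] at h1
        exact h1.symm⟩
  refine ((e.hasSum_iff.mpr h4).mul_left _).congr_fun fun I ↦ ?_
  show φ (Ideal.absNorm (I.1 : Ideal (𝓞 K))) * _ = _ * f (e I)
  have hNJ : (0 : ℝ) < Ideal.absNorm (J : Ideal (𝓞 K)) := Nat.cast_pos.mpr hNpos
  have he : Ideal.absNorm ((e I).1 : Ideal (𝓞 K)) =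
      Ideal.absNorm (J : Ideal (𝓞 K)) * Ideal.absNorm (I.1 : Ideal (𝓞 K)) := by
    show Ideal.absNorm ((J * I.1 : (Ideal (𝓞 K))⁰) : Ideal (𝓞 K)) = _
    rw [Submonoid.coe_mul, map_mul]
  simp only [f, he, Nat.mul_div_cancel_left _ hNpos, Nat.cast_mul,
    Real.mul_rpow hNJ.le (Nat.cast_nonneg _), Complex.ofReal_mul]
  have hcancel : (((Ideal.absNorm (J : Ideal (𝓞 K)) : ℝ) ^ s : ℝ) : ℂ) *
      (((Ideal.absNorm (J : Ideal (𝓞 K)) : ℝ) ^ (-s) : ℝ) : ℂ) = 1 := by
    rw [← Complex.ofReal_mul, ← Real.rpow_add hNJ, add_neg_cancel, Real.rpow_zero,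
      Complex.ofReal_one]
  linear_combination (-(φ (Ideal.absNorm (I.1 : Ideal (𝓞 K))) *
    (((Ideal.absNorm (I.1 : Ideal (𝓞 K)) : ℝ) ^ (-s) : ℝ) : ℂ))) * hcancel

lemma hasSum_classZeta {C : ClassGroup (𝓞 K)} (hJ : ClassGroup.mk0 J = C⁻¹) {s : ℝ}
    (hs : s ∈ Set.Ioc (1 : ℝ) 2) :
    HasSum (fun I : {I : (Ideal (𝓞 K))⁰ // ClassGroup.mk0 I = C} ↦
        (Ideal.absNorm I.1.1 : ℝ) ^ (-s))
      ((Ideal.absNorm J.1 : ℝ) ^ s * ((∑' z : lat J, term K s z) / Units.torsionOrder K)) := by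
  have h := hasSum_classWeight J (φ := fun _ ↦ (1 : ℂ)) (by simp) hJ hs
  simp only [one_mul] at h
  rw [← Complex.ofReal_tsum, ← Complex.ofReal_natCast (Units.torsionOrder K), ← Complex.ofReal_div,
    ← Complex.ofReal_mul] at h
  exact Complex.hasSum_ofReal.mp h

variable (K)

lemma summable_classZeta (C : ClassGroup (𝓞 K)) {s : ℝ} (hs : s ∈ Set.Ioc (1 : ℝ) 2) :
    Summable fun I : {I : (Ideal (𝓞 K))⁰ // ClassGroup.mk0 I = C} ↦
      (Ideal.absNorm I.1.1 : ℝ) ^ (-s) := by
  obtain ⟨J, hJ⟩ := ClassGroup.mk0_surjective C⁻¹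
  exact (hasSum_classZeta J hJ hs).summable

lemma hasSum_idealZeta {s : ℝ} (hs : s ∈ Set.Ioc (1 : ℝ) 2) :
    HasSum (fun I : (Ideal (𝓞 K))⁰ ↦ (Ideal.absNorm I.1 : ℝ) ^ (-s))
      (∑ C : ClassGroup (𝓞 K), classZeta K C s) := by
  refine (Equiv.sigmaFiberEquiv (ClassGroup.mk0 : (Ideal (𝓞 K))⁰ → _)).hasSum_iff.mp ?_
  exact (hasSum_fintype _).sigma_of_hasSum (fun C ↦ (summable_classZeta K C hs).hasSum)
    ((summable_sigma_of_nonneg fun p ↦ Real.rpow_nonneg (Nat.cast_nonneg _) _).mpr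
      ⟨fun C ↦ summable_classZeta K C hs, Summable.of_finite⟩)

lemma classZeta_nonneg (C : ClassGroup (𝓞 K)) (s : ℝ) : 0 ≤ classZeta K C s :=
  tsum_nonneg fun _ ↦ Real.rpow_nonneg (Nat.cast_nonneg _) _

/-- `idealZeta` is comparable to `1 / (s - 1)` near `1`. -/
theorem eventually_idealZeta :
    ∀ᶠ s : ℝ in 𝓝[>] 1, dedekindZeta_residue K / 2 ≤ (s - 1) * idealZeta K s ∧
      (s - 1) * idealZeta K s ≤ 2 * dedekindZeta_residue K := by
  filter_upwards [Arith.Density.eventually_zetaE K, Ioc_mem_nhdsGT one_lt_two] with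
    s ⟨z, hz, h1, h2⟩ hs
  have hz0 : 0 ≤ z := by nlinarith [dedekindZeta_residue_pos K, hs.1]
  suffices idealZeta K s = z by rw [this]; exact ⟨h1, h2⟩
  rw [← ENNReal.toReal_ofReal hz0, ← hz, Arith.Density.zetaE]
  unfold Arith.Density.weight
  rw [ENNReal.tsum_toReal_eq fun _ ↦ ENNReal.ofReal_ne_top, idealZeta]
  refine Eq.trans ?_ ((Equiv.subtypeEquivRight fun _ ↦ mem_nonZeroDivisors_iff_ne_zero).tsum_eq _)
  exact tsum_congr fun I ↦
    (ENNReal.toReal_ofReal (Real.rpow_nonneg (Nat.cast_nonneg _) _)).symm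

/-- Two partial zeta functions differ by a bounded amount near `1`. -/
theorem exists_classZeta_sub_le :
    ∃ B : ℝ, ∀ᶠ s : ℝ in 𝓝[>] 1, ∀ C C' : ClassGroup (𝓞 K),
      |classZeta K C s - classZeta K C' s| ≤ B := by
  obtain ⟨c, hc, happ⟩ := exists_approx K
  set w : ℝ := (Units.torsionOrder K : ℝ)
  have hw : 0 < w := Nat.cast_pos.mpr (Units.torsionOrder_pos K)
  set I : ℝ → ℝ := fun s ↦ (∫ x, farTerm K s x) / (w * c)
  have hI : ∀ s, 0 ≤ I s := fun s ↦ div_nonneg (integral_nonneg (farTerm_nonneg s)) (by positivity)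
  have key : ∀ C : ClassGroup (𝓞 K), ∃ a B : ℝ, 1 ≤ a ∧ ∀ᶠ s in 𝓝[>] (1 : ℝ),
      |classZeta K C s - a ^ (s - 1) * I s| ≤ B := by
    intro C
    obtain ⟨J, hJ⟩ := ClassGroup.mk0_surjective C⁻¹
    obtain ⟨B, hB⟩ := happ J
    have ha : (1 : ℝ) ≤ Ideal.absNorm J.1 := by
      exact_mod_cast Ideal.absNorm_pos_of_nonZeroDivisors J
    refine ⟨_, (Ideal.absNorm J.1 : ℝ) * |B| / (w * c), ha, ?_⟩
    filter_upwards [hB, Ioc_mem_nhdsGT one_lt_two] with s hB hs
    set a : ℝ := (Ideal.absNorm J.1 : ℝ)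
    have ha0 : 0 < a := zero_lt_one.trans_le ha
    rw [show classZeta K C s = _ from (hasSum_classZeta J hJ hs).tsum_eq]
    have : a ^ s * ((∑' z : lat J, term K s z) / w) - a ^ (s - 1) * I s =
        a ^ (s - 1) * ((c * a * (∑' z : lat J, term K s z) - ∫ x, farTerm K s x) / (w * c)) := by
      rw [show a ^ s = a ^ (s - 1) * a by
        rw [← Real.rpow_add_one ha0.ne', sub_add_cancel]]
      simp only [I]
      field_simp
    rw [this, abs_mul, abs_div, abs_of_nonneg (Real.rpow_nonneg ha0.le _),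
      abs_of_pos (by positivity : 0 < w * c), ← mul_div_assoc]
    refine div_le_div_of_nonneg_right ?_ (by positivity)
    refine mul_le_mul ?_ (hB.trans (le_abs_self B)) (abs_nonneg _) ha0.le
    calc a ^ (s - 1) ≤ a ^ (1 : ℝ) := Real.rpow_le_rpow_of_exponent_le ha (by linarith [hs.2])
      _ = a := Real.rpow_one a
  choose a B ha hB using key
  set A := 2 * dedekindZeta_residue K
  have hev : ∀ᶠ s : ℝ in 𝓝[>] 1, (s - 1) * idealZeta K s ≤ A :=
    (eventually_idealZeta K).mono fun _ h ↦ h.2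
  set D : ClassGroup (𝓞 K) → ℝ := fun C ↦ B C + a C * |Real.log (a C)| * (A + |B 1|)
  refine ⟨2 * ∑ C, |D C|, ?_⟩
  filter_upwards [hev, eventually_all.mpr hB, Ioc_mem_nhdsGT one_lt_two] with s hs1 hB hs
  have hone : ∀ C, (1 : ℝ) ≤ a C ^ (s - 1) := fun C ↦
    Real.one_le_rpow (ha C) (by linarith [hs.1])
  have hIle : (s - 1) * I s ≤ A + |B 1| := by
    have h1 : classZeta K 1 s ≤ idealZeta K s := by
      rw [idealZeta, (hasSum_idealZeta K hs).tsum_eq]
      exact Finset.single_le_sum (fun C _ ↦ classZeta_nonneg K C s) (Finset.mem_univ 1)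
    have h2 := (abs_le.mp (hB 1)).1
    have h3 := le_mul_of_one_le_left (hI s) (hone 1)
    calc (s - 1) * I s ≤ (s - 1) * (idealZeta K s + |B 1|) :=
          mul_le_mul_of_nonneg_left (by linarith [le_abs_self (B 1)]) (by linarith [hs.1])
      _ ≤ A + |B 1| := by
          rw [mul_add]
          exact add_le_add hs1 (mul_le_of_le_one_left (abs_nonneg _) (by linarith [hs.2]))
  have hC : ∀ C, |classZeta K C s - I s| ≤ |D C| := fun C ↦ by
    refine le_trans ?_ (le_abs_self (D C))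
    have h1 := abs_sub_le (classZeta K C s) (a C ^ (s - 1) * I s) (I s)
    refine h1.trans (add_le_add (hB C) ?_)
    rw [show a C ^ (s - 1) * I s - I s = (a C ^ (s - 1) - 1) * I s by ring, abs_mul,
      abs_of_nonneg (hI s)]
    have h2 : |a C ^ (s - 1) - 1| ≤ a C * (|Real.log (a C)| * (s - 1)) := by
      rw [Real.rpow_def_of_pos (zero_lt_one.trans_le (ha C)),
        show ∀ t : ℝ, |Real.exp t - 1| = |Real.exp t - Real.exp 0| from fun t ↦ by rw [Real.exp_zero]]
      refine (abs_exp_sub_exp_le _ _).trans (mul_le_mul ?_ ?_ (abs_nonneg _)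
        (zero_le_one.trans (ha C)))
      · rw [Real.exp_zero, ← Real.rpow_def_of_pos (zero_lt_one.trans_le (ha C))]
        refine max_le ?_ (ha C)
        calc a C ^ (s - 1) ≤ a C ^ (1 : ℝ) :=
              Real.rpow_le_rpow_of_exponent_le (ha C) (by linarith [hs.2])
          _ = a C := Real.rpow_one _
      · rw [sub_zero, abs_mul, abs_of_nonneg (by linarith [hs.1] : (0 : ℝ) ≤ s - 1)]
    refine (mul_le_mul_of_nonneg_right h2 (hI s)).trans ?_
    rw [show a C * (|Real.log (a C)| * (s - 1)) * I s =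
      a C * |Real.log (a C)| * ((s - 1) * I s) by ring]
    exact mul_le_mul_of_nonneg_left hIle (mul_nonneg (zero_le_one.trans (ha C)) (abs_nonneg _))
  intro C C'
  have h1 := Finset.single_le_sum (fun C _ ↦ abs_nonneg (D C)) (Finset.mem_univ C)
  have h2 := Finset.single_le_sum (fun C _ ↦ abs_nonneg (D C)) (Finset.mem_univ C')
  have h3 := hC C'
  rw [abs_sub_comm] at h3
  linarith [abs_sub_le (classZeta K C s) (I s) (classZeta K C' s), hC C]

end Fermat.Agent.ClassField
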