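import Fermat.Agent.ClassField.UnitEigen
import Fermat.Prelude.Def_ClassGroup_GaloisAction
import Mathlib.FieldTheory.Finite.Basic

/-!
The `ω²`-part of `α ∈ K^× / K^×p` with `(α)` a `p`-th power and `α` a local `p`-th power at
`1 - ζ` is trivial, for `K = ℚ(ζ_p)`, `p ≥ 5`.
-/

noncomputable section

set_option maxSynthPendingDepth 3

open NumberField UniqueFactorizationMonoid IsDedekindDomain
open scoped nonZeroDivisors Classical Pointwise

namespace Fermat.Agent.ClassField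

variable {K : Type} [Field K] [NumberField K] {p : ℕ} [hp : Fact p.Prime]

lemma exists_addHom_ne_zero_of_module {k A : Type*} [Field k] [AddCommGroup A] [Module k A]
    {z : A} (hz : z ≠ 0) : ∃ φ : A →+ k, φ z ≠ 0 := by
  obtain ⟨f, hf⟩ := Module.Projective.exists_dual_ne_zero k hz
  exact ⟨f.toAddMonoidHom, hf⟩

/-- An elementary `p`-group has enough homomorphisms to `ℤ/p`. -/
lemma exists_addHom_ne_zero {A : Type*} [AddCommGroup A] (hpA : ∀ a : A, p • a = 0) {z : A}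
    (hz : z ≠ 0) : ∃ φ : A →+ ZMod p, φ z ≠ 0 :=
  @exists_addHom_ne_zero_of_module (ZMod p) A (ZMod.instField p) _
    (AddCommGroup.zmodModule hpA) z hz

/-- A homomorphism to `ℤ/p` killing a given endomorphism with an element of order `p` in its
kernel. -/
lemma exists_char_comp_eq_one {M : Type*} [CommGroup M] [Finite M] (f : M →* M) {x : M}
    (hx : x ≠ 1) (hxp : x ^ p = 1) (hfx : f x = 1) :
    ∃ ψ : M →* Multiplicative (ZMod p), ψ ≠ 1 ∧ ∀ y, ψ (f y) = 1 := by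
  have h1 : Nat.card f.ker = Nat.card (M ⧸ f.range) := by
    have h1 : Nat.card f.ker * f.ker.index = Nat.card M := Subgroup.card_mul_index _
    have h2 : Nat.card f.range * f.range.index = Nat.card M := Subgroup.card_mul_index _
    rw [Subgroup.index_ker] at h1
    rw [← Subgroup.index_eq_card]
    have hpos : 0 < Nat.card f.range := Nat.card_pos
    exact Nat.eq_of_mul_eq_mul_left hpos (by rw [h2, mul_comm, h1])
  have hdvd : p ∣ Nat.card (M ⧸ f.range) := by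
    rw [← h1]
    have : orderOf (⟨x, hfx⟩ : f.ker) = p := orderOf_eq_prime (Subtype.ext (by simpa using hxp))
      fun h ↦ hx (congrArg Subtype.val h)
    exact this ▸ orderOf_dvd_natCard _
  set Q := M ⧸ f.range
  obtain ⟨q, hq⟩ := exists_prime_orderOf_dvd_card' (G := Q) p hdvd
  set P := (powMonoidHom p : Q →* Q).range
  have hne : P ≠ ⊤ := fun htop ↦ by
    have hsurj : Function.Surjective (powMonoidHom p : Q →* Q) := MonoidHom.range_eq_top.mp htop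
    have hinj := Finite.injective_iff_surjective.mpr hsurj
    have h0 : powMonoidHom p q = powMonoidHom p 1 := by
      simp only [powMonoidHom_apply, one_pow]
      rw [← hq, pow_orderOf_eq_one]
    have := hinj h0
    rw [this, orderOf_one] at hq
    exact hp.out.ne_one hq.symm
  obtain ⟨z, hz⟩ : ∃ z : Q, z ∉ P := by
    by_contra! h
    exact hne ((Subgroup.eq_top_iff' P).mpr h)
  let A := Additive (Q ⧸ P)
  have hpA : ∀ a : A, p • a = 0 := fun a ↦ by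
    obtain ⟨b, hb⟩ := QuotientGroup.mk_surjective (Additive.toMul a)
    apply Additive.toMul.injective
    rw [toMul_nsmul, ← hb, ← QuotientGroup.mk_pow, toMul_zero, QuotientGroup.eq_one_iff]
    exact ⟨b, rfl⟩
  have hz0 : (Additive.ofMul (QuotientGroup.mk z : Q ⧸ P)) ≠ 0 := by
    rw [ne_eq, ofMul_eq_zero, QuotientGroup.eq_one_iff]
    exact hz
  obtain ⟨φ, hφ⟩ := exists_addHom_ne_zero (A := Additive (Q ⧸ P)) hpA hz0
  let ψ : M →* Multiplicative (ZMod p) :=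
    { toFun := fun y ↦ Multiplicative.ofAdd
        (φ (Additive.ofMul (QuotientGroup.mk (QuotientGroup.mk y : Q) : Q ⧸ P)))
      map_one' := by simp
      map_mul' := fun a b ↦ by simp [← ofAdd_add, ofMul_mul] }
  refine ⟨ψ, fun h ↦ ?_, fun y ↦ ?_⟩
  · obtain ⟨y, rfl⟩ := QuotientGroup.mk_surjective z
    exact hφ (ofAdd_eq_one.mp (DFunLike.congr_fun h y))
  · have : (QuotientGroup.mk (f y) : Q) = 1 := (QuotientGroup.eq_one_iff _).mpr ⟨y, rfl⟩
    show Multiplicative.ofAdd _ = 1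
    simp [this]

/-- The action on the class group. -/
def classAct (σ : K ≃ₐ[ℚ] K) : ClassGroup (𝓞 K) →* ClassGroup (𝓞 K) :=
  (ClassGroup.mulEquiv (MulSemiringAction.toRingEquiv (K ≃ₐ[ℚ] K) (𝓞 K) σ)).toMonoidHom

omit hp in
lemma smul_ideal_ne_bot (σ : K ≃ₐ[ℚ] K) {I : Ideal (𝓞 K)} (hI : I ≠ ⊥) : σ • I ≠ ⊥ := fun h ↦
  hI ((Ideal.map_eq_bot_iff_of_injective
    (MulSemiringAction.toRingEquiv (K ≃ₐ[ℚ] K) (𝓞 K) σ).injective).mp h)

omit hp in
lemma classAct_mk0 (σ : K ≃ₐ[ℚ] K) (I : (Ideal (𝓞 K))⁰) :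
    classAct σ (ClassGroup.mk0 I) = ClassGroup.mk0 ⟨σ • I.1,
      mem_nonZeroDivisors_of_ne_zero (smul_ideal_ne_bot σ (nonZeroDivisors.coe_ne_zero I))⟩ := by
  show ClassGroup.mulEquiv _ (ClassGroup.mk0 I) = _
  rw [ClassGroup.mulEquiv_mk0]
  congr 1

omit hp in
lemma classAct_mul (σ τ : K ≃ₐ[ℚ] K) (C : ClassGroup (𝓞 K)) :
    classAct (σ * τ) C = classAct σ (classAct τ C) := by
  obtain ⟨I, rfl⟩ := ClassGroup.mk0_surjective C
  rw [classAct_mk0, classAct_mk0, classAct_mk0]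
  congr 1
  exact Subtype.ext (mul_smul σ τ I.1)

omit hp in
lemma classAct_one (C : ClassGroup (𝓞 K)) : classAct (1 : K ≃ₐ[ℚ] K) C = C := by
  obtain ⟨I, rfl⟩ := ClassGroup.mk0_surjective C
  rw [classAct_mk0]
  congr 1
  exact Subtype.ext (one_smul _ I.1)

omit [NumberField K] in
/-- An element of `K` whose `p`-th power is a unit is a unit. -/
lemma exists_unit_of_pow_eq {y : K} {w : (𝓞 K)ˣ} (h : y ^ p = (w : K)) :
    ∃ v : (𝓞 K)ˣ, (v : K) = y := by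
  have hy : IsIntegral ℤ y := IsIntegral.of_pow hp.out.pos (h ▸ RingOfIntegers.isIntegral_coe _)
  let Y : 𝓞 K := ⟨y, hy⟩
  have hY : Y ^ p = (w : 𝓞 K) := RingOfIntegers.ext h
  have : IsUnit Y := (isUnit_pow_iff hp.out.ne_zero).mp (hY ▸ w.isUnit)
  exact ⟨this.unit, rfl⟩

variable [IsCyclotomicExtension {p} ℚ K] {ζ : 𝓞 K} (hζ : IsPrimitiveRoot ζ p)

include hζ in
lemma absNorm_span_one_sub_zeta : Ideal.absNorm (Ideal.span {1 - ζ}) = p := by
  have hK : IsPrimitiveRoot (ζ : K) (p ^ (0 + 1)) := by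
    simpa using hζ.map_of_injective (f := algebraMap (𝓞 K) K) RingOfIntegers.coe_injective
  have : IsCyclotomicExtension {p ^ (0 + 1)} ℚ K := by simpa
  have h := IsCyclotomicExtension.Rat.absNorm_span_zeta_sub_one p 0 hK
  rwa [show hK.toInteger = ζ from RingOfIntegers.ext rfl, ← neg_sub,
    Ideal.span_singleton_neg] at h

/-- The cyclotomic character of `K`. -/
def cycChar : (K ≃ₐ[ℚ] K) →* (ZMod p)ˣ :=
  (hζ.map_of_injective (f := algebraMap (𝓞 K) K) RingOfIntegers.coe_injective).autToPow ℚ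

omit [IsCyclotomicExtension {p} ℚ K] in
lemma smul_zeta (σ : K ≃ₐ[ℚ] K) : σ • ζ = ζ ^ (cycChar hζ σ : ZMod p).val :=
  RingOfIntegers.ext
    ((hζ.map_of_injective (f := algebraMap (𝓞 K) K) RingOfIntegers.coe_injective).autToPow_spec ℚ σ).symm

include hζ in
lemma cycChar_bijective : Function.Bijective (cycChar hζ) := by
  have : IsGalois ℚ K := IsCyclotomicExtension.isGalois {p} ℚ K
  rw [Nat.bijective_iff_injective_and_card]
  refine ⟨IsPrimitiveRoot.autToPow_injective _ _, ?_⟩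
  rw [IsGalois.card_aut_eq_finrank, IsCyclotomicExtension.Rat.finrank p K, Nat.card_eq_fintype_card,
    ZMod.card_units p, Nat.totient_prime hp.out]

/-- The exponents of the `ω²`-eigenspace. -/
def sqExp (σ : K ≃ₐ[ℚ] K) : ℕ := ((cycChar hζ σ : ZMod p) ^ 2).val

omit [IsCyclotomicExtension {p} ℚ K] in
lemma cast_sqExp (σ : K ≃ₐ[ℚ] K) : (sqExp hζ σ : ZMod p) = (cycChar hζ σ : ZMod p) ^ 2 := by
  rw [sqExp, ZMod.natCast_val, ZMod.cast_id]

omit [IsCyclotomicExtension {p} ℚ K] in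
lemma cast_sqExp_mul (σ τ : K ≃ₐ[ℚ] K) :
    (sqExp hζ (σ * τ) : ZMod p) = (sqExp hζ σ : ZMod p) * (sqExp hζ τ : ZMod p) := by
  rw [cast_sqExp, cast_sqExp, cast_sqExp, map_mul, Units.val_mul, mul_pow]

lemma sum_gal_pow (j : ℕ) :
    ∑ σ : K ≃ₐ[ℚ] K, (cycChar hζ σ : ZMod p) ^ j = if p - 1 ∣ j then -1 else 0 := by
  rw [Function.Bijective.sum_comp (cycChar_bijective hζ) (fun x : (ZMod p)ˣ ↦ (x : ZMod p) ^ j)]
  have h := FiniteField.sum_pow_units (ZMod p) j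
  rw [ZMod.card p] at h
  exact h

/-- The cyclotomic unit in the `ω²`-eigenspace. -/
def eigenUnitElt : 𝓞 K :=
  ∏ σ : K ≃ₐ[ℚ] K, (∑ i ∈ Finset.range (cycChar hζ σ⁻¹ : ZMod p).val, ζ ^ i) ^ sqExp hζ σ

omit [IsCyclotomicExtension {p} ℚ K] in
lemma isUnit_eigenUnitElt : IsUnit (eigenUnitElt hζ) := by
  refine IsUnit.prod_iff.mpr fun σ _ ↦ IsUnit.pow _ (hζ.geom_sum_isUnit hp.out.two_le ?_)
  rw [Nat.coprime_comm, hp.out.coprime_iff_not_dvd]
  intro h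
  have := Nat.eq_zero_of_dvd_of_lt h (ZMod.val_lt _)
  rw [ZMod.val_eq_zero] at this
  exact (cycChar hζ σ⁻¹).ne_zero this

omit [IsCyclotomicExtension {p} ℚ K] in
lemma twistedUnit_eq :
    twistedUnit (G := K ≃ₐ[ℚ] K) (sqExp hζ) ζ =
      (1 - ζ) ^ (∑ σ : K ≃ₐ[ℚ] K, sqExp hζ σ) * eigenUnitElt hζ := by
  rw [twistedUnit, eigenUnitElt, ← Finset.prod_pow_eq_pow_sum, ← Finset.prod_mul_distrib]
  refine Finset.prod_congr rfl fun σ _ ↦ ?_
  rw [← mul_pow, smul_sub, smul_one, smul_zeta hζ, mul_neg_geom_sum]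

lemma dvd_sum_sqExp (h5 : 5 ≤ p) : p ∣ ∑ σ : K ≃ₐ[ℚ] K, sqExp hζ σ := by
  rw [← ZMod.natCast_eq_zero_iff, Nat.cast_sum]
  simp only [cast_sqExp]
  rw [sum_gal_pow, if_neg]
  intro h
  have := Nat.le_of_dvd two_pos h
  omega

lemma hasTruncLog_eigenUnit [CharP (TruncRing ζ) p] (h5 : 5 ≤ p) :
    HasTruncLog ζ (eigenUnitElt hζ) ((0, -1 / 12) : ZMod p × ZMod p) := by
  have hne : ∀ m : ℕ, 0 < m → m < p → (m : ZMod p) ≠ 0 := fun m h0 hm h ↦ by
    rw [ZMod.natCast_eq_zero_iff] at h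
    exact absurd (Nat.le_of_dvd h0 h) (not_le.mpr hm)
  have h2 : (2 : ZMod p) ≠ 0 := by exact_mod_cast hne 2 two_pos (by omega)
  have h3 : (3 : ZMod p) ≠ 0 := by exact_mod_cast hne 3 three_pos (by omega)
  have h12 : (12 : ZMod p) ≠ 0 := by
    rw [show (12 : ZMod p) = 2 * 2 * 3 by norm_num]; exact mul_ne_zero (mul_ne_zero h2 h2) h3
  let d : (K ≃ₐ[ℚ] K) → ZMod p := fun σ ↦ ((cycChar hζ σ⁻¹ : ZMod p).val : ZMod p)
  have hd : ∀ σ, d σ = (cycChar hζ σ : ZMod p)⁻¹ := fun σ ↦ by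
    simp only [d, ZMod.natCast_val, ZMod.cast_id, map_inv, Units.val_inv_eq_inv_val]
  have h := HasTruncLog.prod (ζ := ζ) h2 Finset.univ (x := fun σ : K ≃ₐ[ℚ] K ↦
      (∑ i ∈ Finset.range (cycChar hζ σ⁻¹ : ZMod p).val, ζ ^ i) ^ sqExp hζ σ)
    (l := fun σ ↦ sqExp hζ σ • ((-(d σ - 1) / 2, (d σ - 1) * (d σ - 5) / 12) : ZMod p × ZMod p))
    (fun σ _ ↦ (hasTruncLog_geom_sum (ζ := ζ) h2 h3 (by
      rw [show (((cycChar hζ σ⁻¹ : ZMod p).val : ℕ) : ZMod p) = d σ from rfl, hd]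
      exact inv_ne_zero (cycChar hζ σ).ne_zero)).pow h2 _)
  have hj : ∀ j, 0 < j → j < p - 1 → ∑ σ : K ≃ₐ[ℚ] K, (cycChar hζ σ : ZMod p) ^ j = 0 :=
    fun j h0 hlt ↦ by
      rw [sum_gal_pow, if_neg]
      exact fun h ↦ absurd (Nat.le_of_dvd h0 h) (not_le.mpr hlt)
  rw [eigenUnitElt]
  convert h using 1
  have e1 : ∀ σ, (sqExp hζ σ : ZMod p) * (-(d σ - 1) / 2) =
      ((cycChar hζ σ : ZMod p) ^ 2 - (cycChar hζ σ : ZMod p) ^ 1) / 2 := fun σ ↦ by
    rw [cast_sqExp, hd]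
    field_simp [(cycChar hζ σ).ne_zero]
    ring
  have e2 : ∀ σ, (sqExp hζ σ : ZMod p) * ((d σ - 1) * (d σ - 5) / 12) =
      ((cycChar hζ σ : ZMod p) ^ 0 - 6 * (cycChar hζ σ : ZMod p) ^ 1 +
        5 * (cycChar hζ σ : ZMod p) ^ 2) / 12 := fun σ ↦ by
    rw [cast_sqExp, hd]
    field_simp [(cycChar hζ σ).ne_zero]
    ring
  refine Prod.ext ?_ ?_
  · rw [Prod.fst_sum]
    simp only [Prod.smul_fst]
    simp only [nsmul_eq_mul, e1]
    rw [← Finset.sum_div, Finset.sum_sub_distrib, hj 2 two_pos (by omega), hj 1 one_pos (by omega),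
      sub_zero, zero_div]
  · rw [Prod.snd_sum]
    simp only [Prod.smul_snd]
    simp only [nsmul_eq_mul, e2]
    rw [← Finset.sum_div, Finset.sum_add_distrib, Finset.sum_sub_distrib, ← Finset.mul_sum,
      ← Finset.mul_sum, hj 2 two_pos (by omega), hj 1 one_pos (by omega), sum_gal_pow,
      if_pos (dvd_zero _)]
    ring

/-- `u` lies in the `ω²`-eigenspace of `K^× / K^×p`. -/
def IsSqEigen (x : K) : Prop :=
  ∀ σ : K ≃ₐ[ℚ] K, ∃ y : K, y ≠ 0 ∧ σ x = x ^ sqExp hζ σ * y ^ p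

omit [IsCyclotomicExtension {p} ℚ K] in
lemma IsSqEigen.mul_pow {x z : K} (hx : IsSqEigen hζ x) (hz : z ≠ 0) :
    IsSqEigen hζ (x * z ^ p) := by
  intro σ
  obtain ⟨y, hy, h⟩ := hx σ
  refine ⟨y * σ z / z ^ sqExp hζ σ,
    div_ne_zero (mul_ne_zero hy (fun h0 ↦ hz (σ.injective (h0.trans (map_zero σ).symm))))
      (pow_ne_zero _ hz), ?_⟩
  rw [map_mul, map_pow, h, div_pow, _root_.mul_pow, _root_.mul_pow, ← pow_mul z p, ← pow_mul z _ p, mul_comm p]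
  field_simp

omit [IsCyclotomicExtension {p} ℚ K] in
lemma isSqEigen_twistedUnit :
    IsSqEigen hζ ((twistedUnit (G := K ≃ₐ[ℚ] K) (sqExp hζ) ζ : 𝓞 K) : K) := by
  intro σ
  let t : K := ((1 - ζ : 𝓞 K) : K)
  have ht : t ≠ 0 :=
    RingOfIntegers.coe_ne_zero_iff.mpr (sub_ne_zero.mpr (hζ.ne_one hp.out.one_lt).symm)
  have hval : ((twistedUnit (G := K ≃ₐ[ℚ] K) (sqExp hζ) ζ : 𝓞 K) : K) =
      ∏ τ : K ≃ₐ[ℚ] K, (τ⁻¹ t) ^ sqExp hζ τ := by
    rw [twistedUnit]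
    show algebraMap (𝓞 K) K _ = _
    rw [map_prod]
    simp only [map_pow]
    rfl
  have hne : ∀ τ : K ≃ₐ[ℚ] K, τ t ≠ 0 := fun τ h0 ↦ ht (τ.injective (h0.trans (map_zero τ).symm))
  have hex : ∀ τ : K ≃ₐ[ℚ] K, ∃ e : ℤ,
      (sqExp hζ (τ * σ) : ℤ) = (sqExp hζ τ * sqExp hζ σ : ℕ) + (p : ℤ) * e := by
    intro τ
    obtain ⟨e, he⟩ := (ZMod.intCast_eq_intCast_iff_dvd_sub ((sqExp hζ τ * sqExp hζ σ : ℕ) : ℤ)
      (sqExp hζ (τ * σ) : ℤ) p).mp (by push_cast; exact (cast_sqExp_mul hζ τ σ).symm)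
    exact ⟨e, by rw [← he]; ring⟩
  choose e he using hex
  refine ⟨∏ τ : K ≃ₐ[ℚ] K, (τ⁻¹ t) ^ e τ, Finset.prod_ne_zero_iff.mpr fun τ _ ↦ zpow_ne_zero _ (hne _), ?_⟩
  rw [hval, map_prod, ← Finset.prod_pow, ← Finset.prod_pow, ← Finset.prod_mul_distrib]
  rw [← Equiv.prod_comp (Equiv.mulRight σ) (fun τ : K ≃ₐ[ℚ] K ↦ σ ((τ⁻¹ t) ^ sqExp hζ τ))]
  refine Finset.prod_congr rfl fun τ _ ↦ ?_
  show σ (((τ * σ)⁻¹ t) ^ sqExp hζ (τ * σ)) = _
  rw [map_pow, show σ ((τ * σ)⁻¹ t) = τ⁻¹ t by rw [← AlgEquiv.mul_apply]; congr 1; group,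
    ← zpow_natCast, he, zpow_add₀ (hne _), zpow_natCast, ← pow_mul, mul_comm (p : ℤ) (e τ), zpow_mul,
    zpow_natCast]

omit [IsCyclotomicExtension {p} ℚ K] in
lemma isSqEigen_unit_iff {u : (𝓞 K)ˣ} (h : IsSqEigen hζ (u : K)) (σ : K ≃ₐ[ℚ] K) :
    ∃ y : (𝓞 K)ˣ, unitAct σ u = u ^ sqExp hζ σ * y ^ p := by
  obtain ⟨y, -, hy⟩ := h σ
  obtain ⟨v, hv⟩ := exists_unit_of_pow_eq (p := p) (y := y)
    (w := unitAct σ u * (u ^ sqExp hζ σ)⁻¹) (by
      simp only [Units.val_mul, map_mul]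
      show y ^ p = algebraMap (𝓞 K) K (unitAct σ u : (𝓞 K)ˣ) * _
      rw [coe_unitAct, hy, mul_comm ((u : K) ^ sqExp hζ σ), mul_assoc]
      have h1 : ((u : K) ^ sqExp hζ σ) * algebraMap (𝓞 K) K (((u ^ sqExp hζ σ)⁻¹ : (𝓞 K)ˣ) : 𝓞 K) = 1 := by
        rw [← map_pow (algebraMap (𝓞 K) K), ← Units.val_pow_eq_pow_val, ← map_mul, Units.mul_inv,
          map_one]
      rw [h1, mul_one])
  refine ⟨v, Units.ext (RingOfIntegers.ext ?_)⟩
  show σ (u : K) = _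
  rw [hy, ← hv]
  simp

include hζ in
lemma hasTruncLog_unit_pow [CharP (TruncRing ζ) p] (h3 : 3 ≤ p) (v : (𝓞 K)ˣ) :
    HasTruncLog ζ ((v : 𝓞 K) ^ p) (0 : ZMod p × ZMod p) := by
  have hN := absNorm_span_one_sub_zeta hζ
  obtain ⟨m, hm⟩ := exists_natCast_sub_mem hN (v : 𝓞 K)
  obtain ⟨y, hy⟩ := Ideal.mem_span_singleton.mp hm
  refine ⟨(m : ZMod p) ^ p, pow_ne_zero _ fun h0 ↦ ?_, ?_⟩
  · rw [ZMod.natCast_eq_zero_iff] at h0
    apply (prime_one_sub_zeta hζ).not_isUnit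
    refine isUnit_of_dvd_unit ?_ v.isUnit
    rw [show (v : 𝓞 K) = (m : 𝓞 K) + (1 - ζ) * y by rw [← hy]; ring]
    refine dvd_add ?_ (dvd_mul_right _ _)
    exact_mod_cast (one_sub_zeta_dvd_intCast_iff hζ (n := (m : ℤ))).mpr (by exact_mod_cast h0)
  · have : ExpChar (TruncRing ζ) p := ExpChar.prime hp.out
    rw [show (v : 𝓞 K) = (m : 𝓞 K) + (1 - ζ) * y by rw [← hy]; ring, map_pow, map_add, map_mul,
      map_natCast, add_pow_expChar, _root_.mul_pow,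
      show (Ideal.Quotient.mk (cubeIdeal ζ) (1 - ζ)) = truncT ζ from rfl,
      show truncT ζ ^ p = 0 from pow_eq_zero_of_le h3 truncT_pow_three, zero_mul, add_zero,
      truncExp_zero, mul_one, map_pow, truncC_natCast]

include hζ in
/-- A local `p`-th power of the form `u₀^k ω v^p` is a `p`-th power. -/
lemma eq_pow_of_local (h5 : 5 ≤ p) (u₀ : (𝓞 K)ˣ) (hu₀ : (u₀ : 𝓞 K) = eigenUnitElt hζ) (k : ℕ)
    {ω : (𝓞 K)ˣ} (hω : ω ∈ Units.torsion K) (v : (𝓞 K)ˣ) {z : 𝓞 K}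
    (hz : ((u₀ ^ k * ω * v ^ p : (𝓞 K)ˣ) : 𝓞 K) - z ^ p ∈ cubeIdeal ζ) :
    p ∣ k ∧ ∃ v' : (𝓞 K)ˣ, ω = v' ^ p := by
  have : CharP (TruncRing ζ) p := charP_truncRing hζ (by omega)
  have h2 : (2 : ZMod p) ≠ 0 := by
    intro h
    have h' : ((2 : ℕ) : ZMod p) = 0 := by exact_mod_cast h
    rw [ZMod.natCast_eq_zero_iff] at h'
    have := Nat.le_of_dvd two_pos h'
    omega
  have h12 : (12 : ZMod p) ≠ 0 := by
    intro h
    have h' : ((12 : ℕ) : ZMod p) = 0 := by exact_mod_cast h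
    rw [ZMod.natCast_eq_zero_iff] at h'
    have h6 := (hp.out.dvd_mul (m := 4) (n := 3)).mp h'
    rcases h6 with h6 | h6
    · have := Nat.le_of_dvd (by norm_num) h6; omega
    · have := Nat.le_of_dvd (by norm_num) h6; omega
  have hodd : Odd p := hp.out.odd_of_ne_two (by omega)
  have hfin : IsOfFinOrder ((ω : 𝓞 K) : K) := by
    have h : IsOfFinOrder ω := hω
    exact (Units.coeHom K).isOfFinOrder ((Units.map (algebraMap (𝓞 K) K : 𝓞 K →* K)).isOfFinOrder h)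
  obtain ⟨r, -, hr⟩ := (hζ.map_of_injective (f := algebraMap (𝓞 K) K)
    RingOfIntegers.coe_injective).exists_pow_or_neg_mul_pow_of_isOfFinOrder hodd hfin
  obtain ⟨ε, hε⟩ : ∃ ε : (𝓞 K)ˣ, (ω : 𝓞 K) = (ε : 𝓞 K) * ζ ^ r ∧ ε ^ p = ε := by
    rcases hr with hr | hr
    · exact ⟨1, by rw [Units.val_one, one_mul]; exact RingOfIntegers.ext (by rw [hr]; rfl), one_pow _⟩
    · refine ⟨-1, ?_, hodd.neg_one_pow⟩
      rw [Units.val_neg, Units.val_one, neg_one_mul]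
      exact RingOfIntegers.ext (by rw [hr]; simp)
  have hl := ((hasTruncLog_eigenUnit hζ h5).pow h2 k).mul h2
    (((hasTruncLog_unit_pow hζ (by omega) ε).mul h2 (hasTruncLog_zeta.pow h2 r)).mul h2
      (hasTruncLog_unit_pow hζ (by omega) v))
  have hzero := hasTruncLog_pow_sub_eq_zero hζ h2 hl (z := z) (by
    convert hz using 2
    rw [Units.val_mul, Units.val_mul, Units.val_pow_eq_pow_val, Units.val_pow_eq_pow_val, hu₀, hε.1,
      ← Units.val_pow_eq_pow_val ε, hε.2]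
    ring)
  simp only [zero_add, add_zero, Prod.ext_iff, Prod.fst_add, Prod.snd_add, Prod.smul_fst,
    Prod.smul_snd, Prod.fst_zero, Prod.snd_zero, smul_zero] at hzero
  simp only [nsmul_eq_mul] at hzero
  obtain ⟨hr0, hk0⟩ := hzero
  have hr1 : p ∣ r := by
    rw [← ZMod.natCast_eq_zero_iff]
    simpa using hr0
  have hk1 : (k : ZMod p) = 0 := by
    rw [show (r : ZMod p) = 0 from (ZMod.natCast_eq_zero_iff r p).mpr hr1] at hk0
    simpa [h12] using hk0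
  refine ⟨(ZMod.natCast_eq_zero_iff k p).mp hk1, ε, Units.ext ?_⟩
  obtain ⟨c, rfl⟩ := hr1
  rw [hε.1, hε.2, pow_mul, hζ.pow_eq_one, one_pow, mul_one]

omit hp [IsCyclotomicExtension {p} ℚ K] in
lemma idealExp_eq_of_span_eq_pow {I : Ideal (𝓞 K)} (hI : I ≠ ⊥)
    (h : ∀ R : Ideal (𝓞 K), R.IsPrime → R ≠ ⊥ → p ∣ idealExp R I) :
    ∃ J : Ideal (𝓞 K), I = J ^ p := by
  refine ⟨∏ R ∈ (normalizedFactors I).toFinset, R ^ (idealExp R I / p), ?_⟩
  conv_lhs => rw [← Ideal.prod_normalizedFactors_eq_self hI, Finset.prod_multiset_count]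
  rw [← Finset.prod_pow]
  refine Finset.prod_congr rfl fun R hR ↦ ?_
  have hpr := prime_of_normalized_factor R (Multiset.mem_toFinset.mp hR)
  rw [← pow_mul, Nat.div_mul_cancel (h R (Ideal.isPrime_of_prime hpr) hpr.ne_zero)]
  rfl

include hζ in
/-- The main theorem on `ℚ(ζ_p)`. -/
theorem exists_pow_eq_of_eigen (h5 : 5 ≤ p) {α : 𝓞 K} (hα : α ≠ 0)
    (heig : IsSqEigen hζ (α : K))
    (hdiv : ∀ R : Ideal (𝓞 K), R.IsPrime → R ≠ ⊥ → p ∣ idealExp R (Ideal.span {α}))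
    (hloc : ∀ u : (𝓞 K)ˣ, (∃ x : K, (u : K) = (α : K) * x ^ p) →
      ∃ z : 𝓞 K, (u : 𝓞 K) - z ^ p ∈ cubeIdeal ζ) :
    ∃ x : K, x ^ p = (α : K) := by
  have hgal : IsGalois ℚ K := IsCyclotomicExtension.isGalois {p} ℚ K
  have hcyc : IsCyclic (K ≃ₐ[ℚ] K) := isCyclic_of_injective (cycChar hζ) (cycChar_bijective hζ).injective
  obtain ⟨g, hg⟩ := IsCyclic.exists_generator (α := K ≃ₐ[ℚ] K)
  set η := twistedUnit (G := K ≃ₐ[ℚ] K) (sqExp hζ) ζ with hηdef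
  set u₀ : (𝓞 K)ˣ := (isUnit_eigenUnitElt hζ).unit with hu₀def
  have hu₀ : (u₀ : 𝓞 K) = eigenUnitElt hζ := rfl
  obtain ⟨M, hM⟩ := dvd_sum_sqExp hζ h5
  have ht : ((1 - ζ : 𝓞 K) : K) ≠ 0 :=
    RingOfIntegers.coe_ne_zero_iff.mpr (sub_ne_zero.mpr (hζ.ne_one hp.out.one_lt).symm)
  have hη : (η : K) = (u₀ : K) * (((1 - ζ : 𝓞 K) : K) ^ M) ^ p := by
    show algebraMap (𝓞 K) K η = algebraMap (𝓞 K) K (u₀ : 𝓞 K) * (algebraMap (𝓞 K) K (1 - ζ) ^ M) ^ p
    rw [hηdef, twistedUnit_eq, hM, map_mul, map_pow, hu₀, ← pow_mul, mul_comm M p]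
    ring
  have hu₀eig : IsSqEigen hζ (u₀ : K) := by
    have h := (isSqEigen_twistedUnit hζ).mul_pow hζ (z := ((((1 - ζ : 𝓞 K) : K) ^ M))⁻¹)
      (inv_ne_zero (pow_ne_zero _ ht))
    rwa [← hηdef, hη, mul_assoc, ← _root_.mul_pow, mul_inv_cancel₀ (pow_ne_zero _ ht), one_pow,
      mul_one] at h
  have hu₀' : ∀ k : ℕ, ∀ ω ∈ Units.torsion K, ∀ v : (𝓞 K)ˣ, ∀ z : 𝓞 K,
      ((u₀ ^ k * ω * v ^ p : (𝓞 K)ˣ) : 𝓞 K) - z ^ p ∈ cubeIdeal ζ →
        p ∣ k ∧ ∃ v' : (𝓞 K)ˣ, ω = v' ^ p :=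
    fun k ω hω v z hz ↦ eq_pow_of_local hζ h5 u₀ hu₀ k hω v hz
  have hu₀ne : ¬ ∃ ω ∈ Units.torsion K, ∃ v : (𝓞 K)ˣ, u₀ = ω * v ^ p := by
    rintro ⟨ω, hω, v, h⟩
    have := hu₀' 1 ω⁻¹ (inv_mem hω) 1 (v : 𝓞 K) (by
      rw [pow_one, one_pow, mul_one, h, mul_right_comm, mul_inv_cancel, one_mul,
        Units.val_pow_eq_pow_val, sub_self]
      exact zero_mem _)
    exact hp.out.ne_one (Nat.dvd_one.mp this.1)
  have hηne : ∀ x : K, x ^ p ≠ (η : K) := by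
    intro x hx
    rw [hη] at hx
    obtain ⟨v, hv⟩ := exists_unit_of_pow_eq (p := p) (y := x / ((1 - ζ : 𝓞 K) : K) ^ M) (w := u₀)
      (by rw [div_pow, hx, mul_div_assoc, div_self (pow_ne_zero _ (pow_ne_zero _ ht)), mul_one])
    refine hu₀ne ⟨1, one_mem _, v, Units.ext (RingOfIntegers.ext ?_)⟩
    show algebraMap (𝓞 K) K (u₀ : 𝓞 K) = algebraMap (𝓞 K) K _
    rw [one_mul, Units.val_pow_eq_pow_val, map_pow, hv, div_pow, hx, mul_div_assoc,
      div_self (pow_ne_zero _ (pow_ne_zero _ ht)), mul_one]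
  -- the class of the `p`-th root of `(α)`
  obtain ⟨J, hJ⟩ := idealExp_eq_of_span_eq_pow (p := p) (I := Ideal.span {α}) (by simpa using hα) hdiv
  have hJ0 : J ≠ ⊥ := fun h ↦ hα (by
    rw [h, ← Ideal.zero_eq_bot, zero_pow hp.out.ne_zero, Ideal.zero_eq_bot,
      Ideal.span_singleton_eq_bot] at hJ
    exact hJ)
  set C := ClassGroup.mk0 ⟨J, mem_nonZeroDivisors_of_ne_zero hJ0⟩ with hCdef
  have hCp : C ^ p = 1 := by
    rw [hCdef, ← map_pow, ClassGroup.mk0_eq_one_iff (SetLike.coe_mem _)]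
    exact ⟨α, hJ.symm⟩
  have hCact : ∀ σ : K ≃ₐ[ℚ] K, classAct σ C = C ^ sqExp hζ σ := by
    intro σ
    obtain ⟨y, hy0, hy⟩ := heig σ
    obtain ⟨a, b, hb, rfl⟩ := IsFractionRing.div_surjective (𝓞 K) y
    have hb0 : b ≠ 0 := nonZeroDivisors.ne_zero hb
    have ha0 : a ≠ 0 := by rintro rfl; simp at hy0
    have h1 : (σ • α) * b ^ p = α ^ sqExp hζ σ * a ^ p := RingOfIntegers.ext (by
      show algebraMap (𝓞 K) K _ = algebraMap (𝓞 K) K _
      rw [map_mul, map_mul, map_pow, map_pow, map_pow]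
      show σ (α : K) * _ = _
      rw [hy, div_pow, mul_assoc, div_mul_cancel₀]
      exact pow_ne_zero _ (by simpa using hb0))
    have h2 : (σ • J * Ideal.span {b}) ^ p = (J ^ sqExp hζ σ * Ideal.span {a}) ^ p := by
      rw [_root_.mul_pow, _root_.mul_pow, Ideal.span_singleton_pow, Ideal.span_singleton_pow,
        ← pow_mul, mul_comm _ p, pow_mul, ← hJ, ← smul_pow', ← hJ, Ideal.span_singleton_pow,
        Ideal.pointwise_smul_def, Ideal.map_span, Set.image_singleton,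
        Ideal.span_singleton_mul_span_singleton, Ideal.span_singleton_mul_span_singleton,
        MulSemiringAction.toRingHom_apply, h1]
    have h3 := pow_left_injective hp.out.ne_zero h2
    rw [hCdef, classAct_mk0, ← map_pow, ClassGroup.mk0_eq_mk0_iff]
    exact ⟨b, a, hb0, ha0, by rw [SubmonoidClass.coe_pow]; rw [mul_comm, h3, mul_comm]⟩
  have hC1 : C = 1 := by
    by_contra hC
    obtain ⟨ψ, hψ, hψf⟩ := exists_char_comp_eq_one (p := p)
      (classAct g / powMonoidHom (sqExp hζ g)) hC hCp (by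
        rw [MonoidHom.div_apply, powMonoidHom_apply, hCact, div_self'])
    have hψg : ∀ D, Multiplicative.toAdd (ψ (classAct g D)) =
        (sqExp hζ g : ZMod p) * Multiplicative.toAdd (ψ D) := fun D ↦ by
      have h := hψf D
      rw [MonoidHom.div_apply, powMonoidHom_apply, map_div, div_eq_one, map_pow] at h
      rw [h, toAdd_pow, nsmul_eq_mul]
    have hψall : ∀ (σ : K ≃ₐ[ℚ] K) D, Multiplicative.toAdd (ψ (classAct σ D)) =
        (sqExp hζ σ : ZMod p) * Multiplicative.toAdd (ψ D) := by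
      intro σ
      obtain ⟨i, rfl⟩ := (mem_powers_iff_mem_zpowers).mpr (hg σ)
      show ∀ D, Multiplicative.toAdd (ψ (classAct (g ^ i) D)) =
        (sqExp hζ (g ^ i) : ZMod p) * Multiplicative.toAdd (ψ D)
      induction i with
      | zero =>
        intro D
        rw [pow_zero, classAct_one, cast_sqExp, map_one, Units.val_one, one_pow, one_mul]
      | succ i ih =>
        intro D
        rw [pow_succ, classAct_mul, ih, hψg, cast_sqExp_mul hζ, mul_assoc]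
    obtain ⟨P, hq, hpP, hηP, hψP, hres⟩ :=
      exists_prime_character_ne_one_and_not_pow (p := p) (by omega) hζ η hηne ψ hψ
    set q := Ideal.absNorm P.asIdeal with hqdef
    have : Fact q.Prime := ⟨hq⟩
    have hcard : Fintype.card (K ≃ₐ[ℚ] K) = Module.finrank ℚ K := by
      rw [← IsGalois.card_aut_eq_finrank, Nat.card_eq_fintype_card]
    refine hres (thaine (q := q) (P := P.asIdeal) hcard hζ (by omega) hqdef.symm hpP ?_ ψ (sqExp hζ)
      (fun σ ↦ ?_) ?_)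
    · intro σ hσ
      obtain ⟨m, hm⟩ := exists_natCast_sub_mem hqdef.symm ζ
      have h1 : σ • (ζ - (m : 𝓞 K)) ∈ P.asIdeal := hσ ▸ Ideal.smul_mem_pointwise_smul σ _ _ hm
      rw [smul_sub, show σ • (m : 𝓞 K) = m by
        rw [← MulSemiringAction.toRingHom_apply _ (𝓞 K) σ (m : 𝓞 K), map_natCast]] at h1
      have h2 : σ • ζ - ζ ∈ P.asIdeal := by simpa using sub_mem h1 hm
      have hfix : σ • ζ = ζ :=
        eq_of_sub_mem hp.out.pos (by rw [← smul_pow', hζ.pow_eq_one, smul_one]) hζ.pow_eq_one hpP h2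
      refine (cycChar_bijective hζ).injective (Units.ext (ZMod.val_injective p ?_))
      rw [map_one, Units.val_one, ZMod.val_one]
      exact hζ.pow_inj (ZMod.val_lt _) hp.out.one_lt (by rw [← smul_zeta hζ, hfix, pow_one])
    · rw [idealChar, dif_pos (smul_ideal_ne_bot σ P.ne_bot), idealChar, dif_pos P.ne_bot]
      have := hψall σ (ClassGroup.mk0 (primeElt P))
      rw [classAct_mk0] at this
      exact this
    · rw [idealChar, dif_pos P.ne_bot]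
      exact fun h ↦ hψP (Multiplicative.toAdd.injective (h.trans toAdd_one.symm))
  -- reduce to units
  obtain ⟨β, hβ⟩ := (ClassGroup.mk0_eq_one_iff _).mp hC1
  rw [← Ideal.span] at hβ
  have hβ0 : β ≠ 0 := fun h ↦ hJ0 (by rw [hβ, h, Ideal.span_singleton_eq_bot.mpr rfl])
  obtain ⟨w, hw⟩ : Associated (β ^ p) α := by
    rw [← Ideal.span_singleton_eq_span_singleton, ← Ideal.span_singleton_pow, ← hβ, hJ]
  have hαK : (α : K) = (w : K) * (β : K) ^ p := by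
    show algebraMap (𝓞 K) K α = algebraMap (𝓞 K) K (w : 𝓞 K) * algebraMap (𝓞 K) K β ^ p
    rw [← hw, map_mul, map_pow, mul_comm]
  have hβK : (β : K) ≠ 0 := by simpa using hβ0
  have hweig : IsSqEigen hζ (w : K) := by
    have h := heig.mul_pow hζ (z := (β : K)⁻¹) (inv_ne_zero hβK)
    rwa [hαK, mul_assoc, ← _root_.mul_pow, mul_inv_cancel₀ hβK, one_pow, mul_one] at h
  obtain ⟨z, hz⟩ := hloc w ⟨(β : K)⁻¹, by
    rw [hαK, mul_assoc, ← _root_.mul_pow, mul_inv_cancel₀ hβK, one_pow, mul_one]⟩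
  obtain ⟨k, ω, hω, v, hwv⟩ := exists_pow_mul_of_eigen (p := p) g hg (by omega)
    (a := sqExp hζ g) u₀ w (isSqEigen_unit_iff hζ hu₀eig g) (isSqEigen_unit_iff hζ hweig g) hu₀ne
  obtain ⟨⟨c, rfl⟩, v', hv'⟩ := hu₀' k ω hω v z (hwv ▸ hz)
  refine ⟨((u₀ ^ c * v' * v : (𝓞 K)ˣ) : K) * (β : K), ?_⟩
  rw [hαK, hwv, hv', _root_.mul_pow]
  congr 1
  simp only [Units.val_mul, Units.val_pow_eq_pow_val, map_mul, map_pow]
  ring

end Fermat.Agent.ClassField
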