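import Fermat.Agent.ClassField.Thaine
import Mathlib.NumberTheory.NumberField.Cyclotomic.Ideal
import Mathlib.Algebra.CharP.Quotient

/-!
The truncated logarithm of units of `ℤ[ζ_p]` modulo `(1 - ζ)^3`.
-/

noncomputable section

open NumberField
open scoped Classical

namespace Fermat.Agent.ClassField

variable {K : Type} [Field K] [NumberField K] {p : ℕ} [hp : Fact p.Prime]
  [IsCyclotomicExtension {p} ℚ K] {ζ : 𝓞 K} (hζ : IsPrimitiveRoot ζ p)

/-- The ideal `((1 - ζ)^3)`. -/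
def cubeIdeal (ζ : 𝓞 K) : Ideal (𝓞 K) := Ideal.span {(1 - ζ) ^ 3}

/-- The truncated ring `𝓞 K / (1 - ζ)^3`. -/
abbrev TruncRing (ζ : 𝓞 K) : Type := 𝓞 K ⧸ cubeIdeal ζ

include hζ in
lemma one_sub_zeta_dvd_intCast_iff {n : ℤ} : 1 - ζ ∣ (n : 𝓞 K) ↔ (p : ℤ) ∣ n := by
  have hK : IsPrimitiveRoot (ζ : K) (p ^ (0 + 1)) := by
    simpa using hζ.map_of_injective (f := algebraMap (𝓞 K) K) RingOfIntegers.coe_injective
  have : IsCyclotomicExtension {p ^ (0 + 1)} ℚ K := by simpa
  have h := IsCyclotomicExtension.Rat.zeta_sub_one_dvd_intCast_iff p 0 hK (n := n)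
  rw [show hK.toInteger = ζ from RingOfIntegers.ext rfl, ← neg_sub, neg_dvd] at h
  exact h

include hζ in
lemma prime_one_sub_zeta : Prime (1 - ζ) := by
  have hK : IsPrimitiveRoot (ζ : K) (p ^ (0 + 1)) := by
    simpa using hζ.map_of_injective (f := algebraMap (𝓞 K) K) RingOfIntegers.coe_injective
  have : IsCyclotomicExtension {p ^ (0 + 1)} ℚ K := by simpa
  have h := hK.zeta_sub_one_prime
  rw [show hK.toInteger = ζ from RingOfIntegers.ext rfl] at h
  rw [← neg_sub]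
  exact h.neg

omit [NumberField K] [IsCyclotomicExtension {p} ℚ K] in
include hζ in
lemma pow_dvd_natCast {j : ℕ} (hj : j ≤ p - 1) : (1 - ζ) ^ j ∣ (p : 𝓞 K) := by
  refine (pow_dvd_pow _ hj).trans ?_
  refine (dvd_trans ?_ (associated_natCast_sub_one_pow hζ).symm.dvd)
  rw [show (1 - ζ) ^ (p - 1) = (-1) ^ (p - 1) * (ζ - 1) ^ (p - 1) by rw [← mul_pow, neg_one_mul, neg_sub]]
  exact (IsUnit.mul_left_dvd ((isUnit_one.neg).pow _)).mpr dvd_rfl

include hζ in
lemma charP_truncRing (h4 : 4 ≤ p) : CharP (TruncRing ζ) p := by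
  refine ⟨fun x ↦ ?_⟩
  rw [← map_natCast (Ideal.Quotient.mk (cubeIdeal ζ)), Ideal.Quotient.eq_zero_iff_mem, cubeIdeal,
    Ideal.mem_span_singleton]
  constructor
  · intro h
    have h1 : 1 - ζ ∣ ((x : ℤ) : 𝓞 K) := by
      rw [Int.cast_natCast]; exact (dvd_pow_self _ three_ne_zero).trans h
    exact Int.natCast_dvd_natCast.mp ((one_sub_zeta_dvd_intCast_iff hζ).mp h1)
  · rintro ⟨c, rfl⟩
    rw [Nat.cast_mul]
    exact (pow_dvd_natCast hζ (by omega)).mul_right _

section calc_trunc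

variable [CharP (TruncRing ζ) p]

/-- The class of `1 - ζ`. -/
def truncT (ζ : 𝓞 K) : TruncRing ζ := Ideal.Quotient.mk _ (1 - ζ)

/-- Scalars. -/
def truncC (ζ : 𝓞 K) [CharP (TruncRing ζ) p] : ZMod p →+* TruncRing ζ :=
  ZMod.castHom dvd_rfl (TruncRing ζ)

omit [IsCyclotomicExtension {p} ℚ K] [CharP (TruncRing ζ) p] hp in
omit [NumberField K] in
lemma truncT_pow_three : truncT ζ ^ 3 = 0 := by
  rw [truncT, ← map_pow, Ideal.Quotient.eq_zero_iff_mem]
  exact Ideal.mem_span_singleton_self _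

omit [IsCyclotomicExtension {p} ℚ K] in
omit [NumberField K] in
lemma truncC_natCast (m : ℕ) : truncC ζ (m : ZMod p) = (m : TruncRing ζ) := map_natCast _ m

omit [IsCyclotomicExtension {p} ℚ K] in
omit [NumberField K] in
lemma truncC_intCast (m : ℤ) : truncC ζ (m : ZMod p) = (m : TruncRing ζ) := map_intCast _ m

include hζ in
/-- `1, T, T^2` are linearly independent over `𝔽_p`. -/
lemma truncC_eq_zero {a b e : ZMod p}
    (h : truncC ζ a + truncC ζ b * truncT ζ + truncC ζ e * truncT ζ ^ 2 = 0) :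
    a = 0 ∧ b = 0 ∧ e = 0 := by
  obtain ⟨a, rfl⟩ := ZMod.intCast_surjective a
  obtain ⟨b, rfl⟩ := ZMod.intCast_surjective b
  obtain ⟨e, rfl⟩ := ZMod.intCast_surjective e
  simp only [truncC_intCast, truncT] at h
  rw [← map_intCast (Ideal.Quotient.mk (cubeIdeal ζ)) a, ← map_intCast (Ideal.Quotient.mk (cubeIdeal ζ)) b,
    ← map_intCast (Ideal.Quotient.mk (cubeIdeal ζ)) e, ← map_mul, ← map_pow, ← map_mul, ← map_add,
    ← map_add, Ideal.Quotient.eq_zero_iff_mem, cubeIdeal, Ideal.mem_span_singleton] at h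
  set t := 1 - ζ
  have ht : t ≠ 0 := (prime_one_sub_zeta hζ).ne_zero
  have key : ∀ z : ℤ, t ∣ (z : 𝓞 K) → (z : ZMod p) = 0 ∧ t ^ 3 ∣ (z : 𝓞 K) ∨ p < 4 := by
    intro z hz
    rcases Nat.lt_or_ge p 4 with h4 | h4
    · exact Or.inr h4
    obtain ⟨c, hc⟩ := (one_sub_zeta_dvd_intCast_iff hζ).mp hz
    refine Or.inl ⟨by rw [hc]; simp, ?_⟩
    rw [hc]; push_cast
    exact (pow_dvd_natCast hζ (by omega)).mul_right _
  have h4 : ¬ p < 4 := by
    intro h4
    have hcast : ((p : ℕ) : TruncRing ζ) = 0 := CharP.cast_eq_zero _ p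
    rw [← map_natCast (Ideal.Quotient.mk (cubeIdeal ζ)), Ideal.Quotient.eq_zero_iff_mem, cubeIdeal,
      Ideal.mem_span_singleton] at hcast
    have h2 := hcast.trans (associated_natCast_sub_one_pow hζ).dvd
    rw [show (ζ - 1) ^ (p - 1) = (-1) ^ (p - 1) * t ^ (p - 1) by rw [← mul_pow, neg_one_mul, neg_sub],
      (IsUnit.dvd_mul_left ((isUnit_one.neg).pow _))] at h2
    have := (pow_dvd_pow_iff ht (prime_one_sub_zeta hζ).not_isUnit).mp h2
    omega
  have ha : t ∣ (a : 𝓞 K) := by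
    have := (dvd_pow_self t three_ne_zero).trans h
    rw [add_assoc, sq] at this
    rwa [dvd_add_left (dvd_add (dvd_mul_left _ _) ((dvd_mul_left t t).mul_left _))] at this
  obtain ⟨ha0, ha3⟩ := (key a ha).resolve_right h4
  rw [add_assoc, dvd_add_right ha3, show (b : 𝓞 K) * t + (e : 𝓞 K) * t ^ 2 = ((b : 𝓞 K) + e * t) * t by ring,
    show t ^ 3 = t ^ 2 * t by ring, mul_dvd_mul_iff_right ht] at h
  have hb : t ∣ (b : 𝓞 K) := by
    have := (dvd_pow_self t two_ne_zero).trans h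
    rwa [dvd_add_left (dvd_mul_left _ _)] at this
  obtain ⟨hb0, hb3⟩ := (key b hb).resolve_right h4
  rw [dvd_add_right ((pow_dvd_pow t (by norm_num : 2 ≤ 3)).trans hb3), sq,
    mul_dvd_mul_iff_right ht] at h
  exact ⟨ha0, hb0, ((key e h).resolve_right h4).1⟩

/-- The truncated exponential with linear coefficient `x.1` and logarithmic quadratic
coefficient `x.2`. -/
def truncExp (ζ : 𝓞 K) [CharP (TruncRing ζ) p] (x : ZMod p × ZMod p) : TruncRing ζ :=
  1 + truncC ζ x.1 * truncT ζ + truncC ζ ((x.2 + x.1 ^ 2) / 2) * truncT ζ ^ 2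

omit [IsCyclotomicExtension {p} ℚ K] in
omit [NumberField K] in
lemma truncExp_zero : truncExp ζ (0 : ZMod p × ZMod p) = 1 := by
  simp [truncExp]

omit [IsCyclotomicExtension {p} ℚ K] in
omit [NumberField K] in
lemma truncExp_add (h2 : (2 : ZMod p) ≠ 0) (x y : ZMod p × ZMod p) :
    truncExp ζ (x + y) = truncExp ζ x * truncExp ζ y := by
  have hh : (x.2 + y.2 + (x.1 + y.1) ^ 2) / 2 =
      (x.2 + x.1 ^ 2) / 2 + (y.2 + y.1 ^ 2) / 2 + x.1 * y.1 := by field_simp; ring
  simp only [truncExp, Prod.fst_add, Prod.snd_add, hh, map_add, map_mul]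
  linear_combination (-(truncC ζ x.1 * truncC ζ ((y.2 + y.1 ^ 2) / 2)
    + truncC ζ ((x.2 + x.1 ^ 2) / 2) * truncC ζ y.1) -
      truncC ζ ((x.2 + x.1 ^ 2) / 2) * truncC ζ ((y.2 + y.1 ^ 2) / 2) * truncT ζ) *
    truncT_pow_three (ζ := ζ)

omit [IsCyclotomicExtension {p} ℚ K] in
omit [NumberField K] in
lemma truncExp_nsmul (h2 : (2 : ZMod p) ≠ 0) (m : ℕ) (x : ZMod p × ZMod p) :
    truncExp ζ (m • x) = truncExp ζ x ^ m := by
  induction m with
  | zero => rw [zero_smul, truncExp_zero, pow_zero]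
  | succ m ih => rw [succ_nsmul, truncExp_add h2, ih, pow_succ]

/-- `x` has logarithm `l` modulo `(1 - ζ)^3`, up to a nonzero scalar. -/
def HasTruncLog (ζ : 𝓞 K) [CharP (TruncRing ζ) p] (x : 𝓞 K) (l : ZMod p × ZMod p) : Prop :=
  ∃ c : ZMod p, c ≠ 0 ∧ Ideal.Quotient.mk (cubeIdeal ζ) x = truncC ζ c * truncExp ζ l

omit [IsCyclotomicExtension {p} ℚ K] in
omit [NumberField K] in
lemma HasTruncLog.one : HasTruncLog ζ (1 : 𝓞 K) (0 : ZMod p × ZMod p) :=
  ⟨1, one_ne_zero, by rw [truncExp_zero, map_one, map_one, one_mul]⟩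

omit [IsCyclotomicExtension {p} ℚ K] in
omit [NumberField K] in
lemma HasTruncLog.mul (h2 : (2 : ZMod p) ≠ 0) {x y : 𝓞 K} {l m : ZMod p × ZMod p}
    (hx : HasTruncLog ζ x l) (hy : HasTruncLog ζ y m) : HasTruncLog ζ (x * y) (l + m) := by
  obtain ⟨c, hc, hx⟩ := hx
  obtain ⟨d, hd, hy⟩ := hy
  refine ⟨c * d, mul_ne_zero hc hd, ?_⟩
  rw [map_mul, hx, hy, truncExp_add h2, map_mul]; ring

omit [IsCyclotomicExtension {p} ℚ K] in
omit [NumberField K] in
lemma HasTruncLog.pow (h2 : (2 : ZMod p) ≠ 0) {x : 𝓞 K} {l : ZMod p × ZMod p}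
    (hx : HasTruncLog ζ x l) (m : ℕ) : HasTruncLog ζ (x ^ m) (m • l) := by
  obtain ⟨c, hc, hx⟩ := hx
  exact ⟨c ^ m, pow_ne_zero m hc, by rw [map_pow, hx, mul_pow, truncExp_nsmul h2, map_pow]⟩

omit [IsCyclotomicExtension {p} ℚ K] in
omit [NumberField K] in
lemma HasTruncLog.prod (h2 : (2 : ZMod p) ≠ 0) {ι : Type*} (s : Finset ι) {x : ι → 𝓞 K}
    {l : ι → ZMod p × ZMod p} (hx : ∀ i ∈ s, HasTruncLog ζ (x i) (l i)) :
    HasTruncLog ζ (∏ i ∈ s, x i) (∑ i ∈ s, l i) := by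
  induction s using Finset.induction_on with
  | empty => simpa using HasTruncLog.one
  | insert a s ha ih =>
    rw [Finset.prod_insert ha, Finset.sum_insert ha]
    exact (hx a (Finset.mem_insert_self a s)).mul h2 (ih fun i hi ↦ hx i (Finset.mem_insert_of_mem hi))

omit [IsCyclotomicExtension {p} ℚ K] in
omit [NumberField K] in
lemma hasTruncLog_zeta :
    HasTruncLog ζ ζ ((-1, -1) : ZMod p × ZMod p) := by
  refine ⟨1, one_ne_zero, ?_⟩
  have hh : ((-1 : ZMod p) + (-1) ^ 2) / 2 = 0 := by ring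
  simp only [truncExp, hh, map_zero, zero_mul, add_zero, map_one, one_mul, map_neg, truncT, map_sub]
  ring

omit [NumberField K] in
/-- The quadratic truncation of `∑ i < d, ζ^i`. -/
lemma mk_geom_sum (d : ℕ) :
    Ideal.Quotient.mk (cubeIdeal ζ) (∑ i ∈ Finset.range d, ζ ^ i) =
      (d : TruncRing ζ) - (d.choose 2 : TruncRing ζ) * truncT ζ +
        (d.choose 3 : TruncRing ζ) * truncT ζ ^ 2 := by
  have hζ' : Ideal.Quotient.mk (cubeIdeal ζ) ζ = 1 - truncT ζ := by
    rw [truncT, map_sub, map_one, sub_sub_cancel]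
  have hpow : ∀ i : ℕ, (1 - truncT ζ) ^ i =
      1 - (i : TruncRing ζ) * truncT ζ + (i.choose 2 : TruncRing ζ) * truncT ζ ^ 2 := by
    intro i
    induction i with
    | zero => simp
    | succ i ih =>
      rw [pow_succ, ih, Nat.choose_succ_succ' i 1, Nat.choose_one_right]
      push_cast
      linear_combination (-(i.choose 2 : TruncRing ζ)) * truncT_pow_three (ζ := ζ)
  induction d with
  | zero => simp
  | succ d ih =>
    rw [Finset.sum_range_succ, map_add, ih, map_pow, hζ', hpow, Nat.choose_succ_succ' d 1,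
      Nat.choose_one_right, Nat.choose_succ_succ' d 2]
    push_cast
    ring

omit [IsCyclotomicExtension {p} ℚ K] in
omit [NumberField K] in
/-- The logarithm of a cyclotomic unit. -/
lemma hasTruncLog_geom_sum (h2 : (2 : ZMod p) ≠ 0) (h3 : (3 : ZMod p) ≠ 0) {d : ℕ}
    (hd : (d : ZMod p) ≠ 0) :
    HasTruncLog ζ (∑ i ∈ Finset.range d, ζ ^ i)
      ((-((d : ZMod p) - 1) / 2, ((d : ZMod p) - 1) * ((d : ZMod p) - 5) / 12) : ZMod p × ZMod p) := by
  refine ⟨(d : ZMod p), hd, ?_⟩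
  have c2 : (d.choose 2 : ZMod p) = (d : ZMod p) * ((d : ZMod p) - 1) / 2 := by
    rw [eq_div_iff h2]
    induction d with
    | zero => simp
    | succ n ih =>
      rw [Nat.choose_succ_succ' n 1, Nat.choose_one_right]
      by_cases hn : (n : ZMod p) = 0
      · have hc : (n.choose 2 : ZMod p) * 2 = 0 := by
          have : ((n.choose 2 * 2 : ℕ) : ZMod p) = ((n * (n - 1) : ℕ) : ZMod p) := by
            rw [Nat.choose_two_right, Nat.div_mul_cancel (Nat.even_mul_pred_self n).two_dvd]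
          push_cast at this
          rw [this, hn, zero_mul]
        push_cast
        rw [hn, zero_add, zero_add, one_mul, sub_self]
        exact hc
      · push_cast
        linear_combination ih hn
  have c3 : (d.choose 3 : ZMod p) =
      (d : ZMod p) * ((d : ZMod p) - 1) * ((d : ZMod p) - 2) / 6 := by
    have h6 : (6 : ZMod p) ≠ 0 := by rw [show (6 : ZMod p) = 2 * 3 by norm_num]; exact mul_ne_zero h2 h3
    rw [eq_div_iff h6]
    have key : ∀ n : ℕ, (n.choose 2 : ZMod p) * 2 = n * ((n : ZMod p) - 1) ∧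
        (n.choose 3 : ZMod p) * 6 = n * ((n : ZMod p) - 1) * ((n : ZMod p) - 2) := by
      intro n
      induction n with
      | zero => simp
      | succ n ih =>
        rw [Nat.choose_succ_succ' n 1, Nat.choose_one_right, Nat.choose_succ_succ' n 2]
        push_cast
        exact ⟨by linear_combination ih.1, by linear_combination ih.2 + 3 * ih.1⟩
    exact (key d).2
  have h12 : (12 : ZMod p) ≠ 0 := by
    rw [show (12 : ZMod p) = 2 * 2 * 3 by norm_num]; exact mul_ne_zero (mul_ne_zero h2 h2) h3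
  have h6 : (6 : ZMod p) ≠ 0 := by rw [show (6 : ZMod p) = 2 * 3 by norm_num]; exact mul_ne_zero h2 h3
  rw [mk_geom_sum, ← truncC_natCast (ζ := ζ) (p := p), ← truncC_natCast (ζ := ζ) (p := p) (d.choose 2),
    ← truncC_natCast (ζ := ζ) (p := p) (d.choose 3), c2, c3, truncExp]
  have e1 : (d : ZMod p) * (-((d : ZMod p) - 1) / 2) = -((d : ZMod p) * ((d : ZMod p) - 1) / 2) := by
    ring
  have e2 : (d : ZMod p) * ((((d : ZMod p) - 1) * ((d : ZMod p) - 5) / 12 +
      (-((d : ZMod p) - 1) / 2) ^ 2) / 2) =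
      (d : ZMod p) * ((d : ZMod p) - 1) * ((d : ZMod p) - 2) / 6 := by field_simp; ring
  rw [mul_add, mul_add, mul_one, ← mul_assoc, ← mul_assoc, ← map_mul, ← map_mul, e1, e2, map_neg]
  ring

include hζ in
/-- The logarithm of a `p`-th power residue is zero. -/
lemma hasTruncLog_pow_sub_eq_zero (h2 : (2 : ZMod p) ≠ 0) {x z : 𝓞 K} {l : ZMod p × ZMod p}
    (hx : HasTruncLog ζ x l) (hz : x - z ^ p ∈ cubeIdeal ζ) : l = 0 := by
  obtain ⟨c, hc, hx⟩ := hx
  have hres : ∃ (m : ℤ) (y : 𝓞 K), z = m + (1 - ζ) * y := by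
    have hN : Ideal.absNorm (Ideal.span {1 - ζ}) = p := by
      have hK : IsPrimitiveRoot (ζ : K) (p ^ (0 + 1)) := by
        simpa using hζ.map_of_injective (f := algebraMap (𝓞 K) K) RingOfIntegers.coe_injective
      have : IsCyclotomicExtension {p ^ (0 + 1)} ℚ K := by simpa
      have h := IsCyclotomicExtension.Rat.absNorm_span_zeta_sub_one p 0 hK
      rwa [show hK.toInteger = ζ from RingOfIntegers.ext rfl, ← neg_sub,
        Ideal.span_singleton_neg] at h
    obtain ⟨m, hm⟩ := exists_natCast_sub_mem hN z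
    obtain ⟨y, hy⟩ := Ideal.mem_span_singleton.mp hm
    exact ⟨m, y, by rw [Int.cast_natCast, ← hy]; ring⟩
  obtain ⟨m, y, rfl⟩ := hres
  rw [← Ideal.Quotient.eq, hx, map_pow, map_add, map_mul, map_intCast,
    ← truncC_intCast (ζ := ζ) (p := p)] at hz
  have hp3 : 3 ≤ p := by
    have := hp.out.two_le
    rcases Nat.lt_or_ge p 3 with h | h
    · exfalso
      have : p = 2 := by omega
      subst this
      exact h2 rfl
    · exact h
  have : ExpChar (TruncRing ζ) p := ExpChar.prime hp.out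
  rw [add_pow_expChar, mul_pow, show (Ideal.Quotient.mk (cubeIdeal ζ) (1 - ζ)) = truncT ζ from rfl,
    show truncT ζ ^ p = 0 from pow_eq_zero_of_le hp3 truncT_pow_three, zero_mul, add_zero, ← map_pow,
    truncExp, ← sub_eq_zero] at hz
  have h := truncC_eq_zero hζ (a := c - (m : ZMod p) ^ p) (b := c * l.1)
    (e := c * ((l.2 + l.1 ^ 2) / 2)) (by rw [map_sub, map_mul, map_mul, ← hz]; ring)
  obtain ⟨-, h1, h2'⟩ := h
  have hl1 : l.1 = 0 := (mul_eq_zero.mp h1).resolve_left hc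
  rw [hl1, zero_pow two_ne_zero, add_zero] at h2'
  exact Prod.ext hl1 (by simpa [h2] using (mul_eq_zero.mp h2').resolve_left hc)

end calc_trunc

end Fermat.Agent.ClassField
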