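import Mathlib.Algebra.Module.ZLattice.Covolume
import Mathlib.Algebra.Module.ZLattice.Summable
import Mathlib.Analysis.SpecialFunctions.JapaneseBracket
import Mathlib.MeasureTheory.Group.FundamentalDomain
import Mathlib.MeasureTheory.Integral.Bochner.Set
import Mathlib.Analysis.Normed.Group.Tannery
import Mathlib.MeasureTheory.Group.Integral

/-!
Comparison of a lattice sum with an integral, for functions whose oscillation at scale `r`
decays faster than the lattice sum can diverge.
-/

noncomputable section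

open MeasureTheory Module Set Filter Topology

namespace Fermat.Agent.ClassField

variable {E : Type*} [NormedAddCommGroup E] [NormedSpace ℝ E] [FiniteDimensional ℝ E]
  [MeasurableSpace E] [BorelSpace E]
  (L : Submodule ℤ E) [DiscreteTopology L] [IsZLattice ℝ L]

/-- The decay exponent used throughout. -/
def decay (x : E) : ℝ := (1 + ‖x‖) ^ (-((finrank ℝ E : ℝ) + 1))

omit [FiniteDimensional ℝ E] [MeasurableSpace E] [BorelSpace E] in
lemma decay_nonneg (x : E) : 0 ≤ decay x :=
  Real.rpow_nonneg (by positivity) _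

omit [MeasurableSpace E] [BorelSpace E] in
lemma summable_one_add_norm_rpow {r : ℝ} (hr : (finrank ℝ E : ℝ) < r) :
    Summable fun z : L ↦ (1 + ‖(z : E)‖) ^ (-r) := by
  have hd : finrank ℤ L = finrank ℝ E := ZLattice.rank ℝ L
  refine Summable.of_norm_bounded_eventually
    (ZLattice.summable_norm_rpow L (-r) (by rw [hd]; linarith)) ?_
  filter_upwards [(Set.finite_singleton (0 : L)).compl_mem_cofinite] with z hz
  have hz' : 0 < ‖(z : E)‖ := by simpa using hz
  rw [Real.norm_of_nonneg (Real.rpow_nonneg (by positivity) _)]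
  exact Real.rpow_le_rpow_of_nonpos (by simpa using hz) (by simp)
    (by linarith [(Nat.cast_nonneg (finrank ℝ E) : (0 : ℝ) ≤ _)])

omit [FiniteDimensional ℝ E] [MeasurableSpace E] [BorelSpace E] in
theorem decay_add_le (a z : E) :
    decay (a + z) ≤ (1 + ‖a‖) ^ ((finrank ℝ E : ℝ) + 1) * decay z := by
  have h1 : 1 + ‖z‖ ≤ (1 + ‖a‖) * (1 + ‖a + z‖) := by
    have h2 : ‖z‖ ≤ ‖a + z‖ + ‖a‖ := by simpa using norm_sub_le (a + z) a
    nlinarith [norm_nonneg a, norm_nonneg (a + z)]
  rw [decay, decay, Real.rpow_neg (by positivity), Real.rpow_neg (by positivity), ← div_eq_mul_inv,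
    le_div_iff₀ (by positivity), inv_mul_le_iff₀ (by positivity), mul_comm,
    ← Real.mul_rpow (by positivity) (by positivity)]
  exact Real.rpow_le_rpow (by positivity) h1 (by positivity)

variable (μ : Measure E) [μ.IsAddHaarMeasure]

/-- The difference between a shifted lattice sum and the integral has a limit at `1⁺`. -/
theorem exists_tendsto_tsum_sub_integral :
    ∃ r : ℝ, 0 < r ∧ ∀ (a : E) (C M : ℝ) (F : ℝ → E → ℝ),
      (∀ s ∈ Ioc (1 : ℝ) 2, Integrable (F s) μ) →
      (∀ s ∈ Ioc (1 : ℝ) 2, Summable fun z : L ↦ F s (a + z)) →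
      (∀ s ∈ Icc (1 : ℝ) 2, Measurable (F s)) →
      (∀ s ∈ Icc (1 : ℝ) 2, ∀ x, |F s x| ≤ M) →
      (∀ x, ContinuousWithinAt (fun s ↦ F s x) (Icc 1 2) 1) →
      (∀ s ∈ Icc (1 : ℝ) 2, ∀ x y, ‖y - x‖ ≤ r → |F s y - F s x| ≤ C * decay x) →
      ∃ c : ℝ, Tendsto (fun s ↦ ZLattice.covolume L μ * (∑' z : L, F s (a + z)) - ∫ x, F s x ∂μ)
        (𝓝[>] 1) (𝓝 c) := by
  set b := Free.chooseBasis ℤ L
  set D := ZSpan.fundamentalDomain (b.ofZLatticeBasis ℝ L)
  have hD : IsAddFundamentalDomain L D μ := ZLattice.isAddFundamentalDomain b μ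
  have hDb : Bornology.IsBounded D := ZSpan.fundamentalDomain_isBounded _
  obtain ⟨r, hr0, hr⟩ := hDb.exists_pos_norm_le
  have hDfin : μ D < ⊤ := hDb.measure_lt_top
  refine ⟨r, hr0, fun a C M F hF hsum hmeas hM hcont hosc ↦ ?_⟩
  have hIcc : ∀ᶠ s in 𝓝[>] (1 : ℝ), s ∈ Ioc (1 : ℝ) 2 := Ioc_mem_nhdsGT one_lt_two
  let d : ℝ → L → ℝ := fun s z ↦ μ.real D * F s (a + z) - ∫ x in D, F s (a + (z +ᵥ x)) ∂μ
  have : MeasurableVAdd L E := (inferInstance : MeasurableVAdd L.toAddSubgroup E)
  have : VAddInvariantMeasure L E μ := (inferInstance : VAddInvariantMeasure L.toAddSubgroup E μ)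
  have hint : ∀ s ∈ Ioc (1 : ℝ) 2, ∀ z : L, IntegrableOn (fun x ↦ F s (a + (z +ᵥ x))) D μ :=
    fun s hs z ↦ (((measurePreserving_add_left μ a).comp
      (measurePreserving_add_left μ (z : E))).integrable_comp_of_integrable (hF s hs)).integrableOn
  have hbound : ∀ s ∈ Ioc (1 : ℝ) 2, ∀ z : L,
      |d s z| ≤ |C| * ((1 + ‖a‖) ^ ((finrank ℝ E : ℝ) + 1) * decay (z : E)) * μ.real D := by
    intro s hs z
    have hc : IntegrableOn (fun _ ↦ F s (a + z)) D μ := integrableOn_const hDfin.ne
    have : d s z = ∫ x in D, (F s (a + z) - F s (a + (z +ᵥ x))) ∂μ := by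
      rw [integral_sub hc (hint s hs z), setIntegral_const, smul_eq_mul]
    rw [this]
    refine (norm_setIntegral_le_of_norm_le_const
      (f := fun x ↦ F s (a + z) - F s (a + (z +ᵥ x))) (C := |C| * decay (a + (z : E))) hDfin ?_).trans ?_
    · intro x hx
      rw [Real.norm_eq_abs, abs_sub_comm]
      refine (hosc s (Ioc_subset_Icc_self hs) _ _ ?_).trans
        (mul_le_mul_of_nonneg_right (le_abs_self C) (decay_nonneg _))
      simpa [Submodule.vadd_def] using hr x hx
    · exact mul_le_mul_of_nonneg_right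
        (mul_le_mul_of_nonneg_left (decay_add_le a _) (abs_nonneg C)) measureReal_nonneg
  have hbsum : Summable fun z : L ↦
      |C| * ((1 + ‖a‖) ^ ((finrank ℝ E : ℝ) + 1) * decay (z : E)) * μ.real D :=
    (((summable_one_add_norm_rpow L (by linarith : (finrank ℝ E : ℝ) < finrank ℝ E + 1)).mul_left
      ((1 + ‖a‖) ^ ((finrank ℝ E : ℝ) + 1))).mul_left |C|).mul_right _
  have hlim : ∀ z : L, Tendsto (fun s ↦ d s z) (𝓝[>] 1) (𝓝 (d 1 z)) := by
    intro z
    have hsub : 𝓝[>] (1 : ℝ) ≤ 𝓝[Icc 1 2] 1 :=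
      nhdsWithin_le_iff.mpr (mem_of_superset hIcc Ioc_subset_Icc_self)
    refine (((hcont (a + z)).tendsto.mono_left hsub).const_mul _).sub ?_
    refine tendsto_integral_filter_of_dominated_convergence (fun _ ↦ M) ?_ ?_ ?_ ?_
    · filter_upwards [hIcc] with s hs
      exact ((hmeas s (Ioc_subset_Icc_self hs)).comp
        ((measurable_const_add a).comp (measurable_const_add (z : E)))).aestronglyMeasurable
    · filter_upwards [hIcc] with s hs
      exact Eventually.of_forall fun x ↦ hM s (Ioc_subset_Icc_self hs) _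
    · exact integrableOn_const hDfin.ne
    · exact Eventually.of_forall fun x ↦ (hcont _).tendsto.mono_left hsub
  refine ⟨∑' z, d 1 z, (tendsto_tsum_of_dominated_convergence hbsum hlim ?_).congr' ?_⟩
  · filter_upwards [hIcc] with s hs z using hbound s hs z
  filter_upwards [hIcc] with s hs
  have hsd : Summable (d s) := Summable.of_norm_bounded hbsum (hbound s hs)
  have hsI : Summable fun z : L ↦ ∫ x in D, F s (a + (z +ᵥ x)) ∂μ :=
    (((hsum s hs).mul_left (μ.real D)).sub hsd).congr fun z ↦ by simp [d]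
  have hFa : Integrable (fun x ↦ F s (a + x)) μ :=
    (measurePreserving_add_left μ a).integrable_comp_of_integrable (hF s hs)
  rw [ZLattice.covolume_eq_measure_fundamentalDomain L μ hD, ← integral_add_left_eq_self (F s) a,
    hD.integral_eq_tsum'' _ hFa, ← tsum_mul_left,
    ← Summable.tsum_sub ((hsum s hs).mul_left _) hsI]

end Fermat.Agent.ClassField
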