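import Fermat.Agent.ClassField.IdealExp
import Fermat.Agent.ClassField.Density

/-!
Thaine's argument in its simplest form: for a degree one prime `P`, the element `1 - ζ` is turned
by Hilbert 90 in `K(ζ_q)/K` into a relation between the primes over `q` in the class group.
-/

noncomputable section

open NumberField UniqueFactorizationMonoid
open scoped nonZeroDivisors Classical Pointwise

namespace Fermat.Agent.ClassField

variable {K : Type} [Field K] [NumberField K] {p : ℕ} [hp : Fact p.Prime]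
  {q : ℕ} [hq : Fact q.Prime] {P : Ideal (𝓞 K)}

section split

variable {G : Type*} [Group G] [Fintype G] [MulSemiringAction G (𝓞 K)]

/-- If the orbit of a degree one prime `P` over `q` has full size, it exhausts `(q)`. -/
lemma prod_orbit_eq_span (hP : Ideal.absNorm P = q) [P.IsPrime]
    (hcard : Fintype.card G = Module.finrank ℚ K) (hfree : ∀ σ : G, σ • P = P → σ = 1) :
    ∏ σ : G, σ • P = Ideal.span {(q : 𝓞 K)} := by
  have hPbot : P ≠ ⊥ := fun h ↦ hq.out.ne_zero (by rw [← hP, h, Ideal.absNorm_bot])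
  have hinj : Function.Injective fun σ : G ↦ σ • P := fun a b h ↦ by
    have := hfree (b⁻¹ * a) (by rw [mul_smul, show a • P = b • P from h, inv_smul_smul])
    rw [inv_mul_eq_one.mp this]
  have hne : ∀ σ : G, σ • P ≠ ⊥ := fun σ h ↦ hq.out.ne_zero (by
    rw [← hP, ← absNorm_smul σ P, h, Ideal.absNorm_bot])
  have hdvd : ∏ σ : G, σ • P ∣ Ideal.span {(q : 𝓞 K)} := by
    rw [← Finset.prod_image (s := Finset.univ) (g := fun σ : G ↦ σ • P) (f := fun I ↦ I) hinj.injOn]
    refine Finset.prod_primes_dvd _ (fun I hI ↦ ?_) (fun I hI ↦ ?_)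
    · obtain ⟨σ, -, rfl⟩ := Finset.mem_image.mp hI
      exact Ideal.prime_of_isPrime (hne σ) inferInstance
    · obtain ⟨σ, -, rfl⟩ := Finset.mem_image.mp hI
      rw [Ideal.dvd_span_singleton]
      exact natCast_self_mem (by rw [absNorm_smul, hP])
  obtain ⟨A, hA⟩ := hdvd
  have h := congrArg Ideal.absNorm hA
  rw [map_mul, map_prod, Finset.prod_congr rfl fun σ _ ↦ (absNorm_smul σ P).trans hP,
    Finset.prod_const, Finset.card_univ, hcard, Ideal.absNorm_span_singleton,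
    show (q : 𝓞 K) = algebraMap ℤ (𝓞 K) q by simp, Algebra.norm_algebraMap, RingOfIntegers.rank,
    Int.natAbs_pow, Int.natAbs_natCast] at h
  have : A = ⊤ := Ideal.absNorm_eq_one_iff.mp
    (mul_eq_left₀ (pow_ne_zero _ hq.out.ne_zero) |>.mp h.symm)
  rw [hA, this, ← Ideal.one_eq_top, mul_one]

end split

section tower

omit hp hq in
lemma associated_natCast_sub_one_pow {R : Type*} [CommRing R] [IsDomain R] {q : ℕ}
    [hq : Fact q.Prime] {μ : R} (hμ : IsPrimitiveRoot μ q) :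
    Associated (q : R) ((μ - 1) ^ (q - 1)) := by
  obtain ⟨n, rfl⟩ : ∃ n, q = n + 1 := ⟨q - 1, by have := hq.out.one_lt; omega⟩
  rw [Nat.cast_succ, ← hμ.prod_one_sub_pow_eq_order, Nat.add_sub_cancel,
    show (μ - 1) ^ n = ∏ _k ∈ Finset.range n, (μ - 1) by simp]
  refine Associated.prod _ _ _ fun k hk ↦ ?_
  rw [← neg_sub]
  refine (Associated.refl _).neg_left.trans ?_
  refine (hμ.associated_sub_one_pow_sub_one_of_coprime (Nat.Coprime.symm ?_)).symm
  rw [hq.out.coprime_iff_not_dvd]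
  rw [Finset.mem_range] at hk
  exact fun h ↦ by have := Nat.le_of_dvd (Nat.succ_pos k) h; omega

variable {F : Type} [Field F] [NumberField F] [Algebra K F]

/-- In `K(ζ_q)/K` a prime `R` not over `q` is unramified. -/
lemma idealExp_map_self_eq_one [IsGalois K F] [IsCyclotomicExtension {q} K F] {μ : 𝓞 F}
    (hμ : IsPrimitiveRoot μ q) {R : Ideal (𝓞 K)} [R.IsMaximal] {Q : Ideal (𝓞 F)} [Q.IsPrime]
    [Q.LiesOver R] (hR : R ≠ ⊥) (hqR : (q : 𝓞 K) ∉ R) :
    idealExp Q (R.map (algebraMap (𝓞 K) (𝓞 F))) = 1 := by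
  have hqQ : (q : 𝓞 F) ∉ Q := fun h ↦ hqR (by
    rw [Ideal.LiesOver.over (P := Q) (p := R), Ideal.mem_under, map_natCast]; exact h)
  have htriv : ∀ τ ∈ Q.inertia (F ≃ₐ[K] F), τ = 1 := by
    intro τ hτ
    have hfix : τ • μ = μ := eq_of_sub_mem hq.out.pos
      (by rw [← smul_pow', hμ.pow_eq_one, smul_one]) hμ.pow_eq_one hqQ (hτ μ)
    refine IsCyclotomicExtension.algEquiv_eq_of_apply_eq {q} K F ?_
    intro n hn _
    obtain rfl : n = q := hn
    refine ⟨(μ : F), hμ.map_of_injective RingOfIntegers.coe_injective, ?_⟩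
    exact congrArg (algebraMap (𝓞 F) F) hfix
  exact idealExp_map_self_eq_one_of_inertia hR htriv

/-- In `K(ζ_q)/K` a degree one prime `R` over `q` is totally ramified. -/
lemma totallyRamified [IsGalois K F] [IsCyclotomicExtension {q} K F] {μ : 𝓞 F}
    (hμ : IsPrimitiveRoot μ q) (hq3 : 3 ≤ q) {R : Ideal (𝓞 K)} [R.IsMaximal]
    (hR : Ideal.absNorm R = q) (hqR : idealExp R (Ideal.span {(q : 𝓞 K)}) = 1) :
    ∃ Q : Ideal (𝓞 F), Q.IsPrime ∧ Q.LiesOver R ∧ Ideal.absNorm Q = q ∧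
      Nat.card (F ≃ₐ[K] F) = q - 1 ∧ R.map (algebraMap (𝓞 K) (𝓞 F)) = Q ^ (q - 1) ∧
      idealExp Q (Ideal.span {μ - 1}) = 1 ∧ ∀ τ : F ≃ₐ[K] F, τ • Q = Q := by
  have hRbot : R ≠ ⊥ := fun h ↦ hq.out.ne_zero (by rw [← hR, h, Ideal.absNorm_bot])
  obtain ⟨Q, hQmax, hQR⟩ := Ideal.exists_maximal_ideal_liesOver_of_isIntegral (S := 𝓞 F) R
  have hQbot : Q ≠ ⊥ := Ideal.ne_bot_of_liesOver_of_ne_bot hRbot Q
  have hQpr : Prime Q := Ideal.prime_of_isPrime hQbot hQmax.isPrime
  have hqQ : (q : 𝓞 F) ∈ Q := by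
    have : (q : 𝓞 K) ∈ R := natCast_self_mem hR
    rw [Ideal.LiesOver.over (P := Q) (p := R), Ideal.mem_under, map_natCast] at this
    exact this
  have hμ1 : μ - 1 ≠ 0 := sub_ne_zero.mpr (hμ.ne_one hq.out.one_lt)
  have hqspan : Ideal.span {(q : 𝓞 F)} = Ideal.span {μ - 1} ^ (q - 1) := by
    rw [Ideal.span_singleton_pow, Ideal.span_singleton_eq_span_singleton]
    exact associated_natCast_sub_one_pow hμ
  have hπQ : Q ∣ Ideal.span {μ - 1} := by
    refine hQpr.dvd_of_dvd_pow (n := q - 1) ?_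
    rw [← hqspan, Ideal.dvd_span_singleton]; exact hqQ
  set e := idealExp Q (R.map (algebraMap (𝓞 K) (𝓞 F))) with he
  have he1 : e = (q - 1) * idealExp Q (Ideal.span {μ - 1}) := by
    have h := idealExp_map (F := F) (Q := Q) hRbot (I := Ideal.span {(q : 𝓞 K)})
      (by simp [hq.out.ne_zero])
    rw [Ideal.map_span, Set.image_singleton, map_natCast, hqR, mul_one, hqspan, idealExp_pow] at h
    exact h.symm
  have hπ1 : 1 ≤ idealExp Q (Ideal.span {μ - 1}) := one_le_idealExp hQpr (by simpa using hμ1) hπQ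
  obtain ⟨A, hA, -, hA0⟩ := exists_eq_pow_idealExp_mul hQpr (map_ideal_ne_bot (F := F) hRbot)
  have hN : q ^ Module.finrank (𝓞 K) (𝓞 F) = Ideal.absNorm Q ^ e * Ideal.absNorm A := by
    have h : Ideal.absNorm (R.map (algebraMap (𝓞 K) (𝓞 F))) = Ideal.absNorm R ^ Module.finrank (𝓞 K) (𝓞 F) :=
      Ideal.absNorm_algebraMap (𝓞 K) (𝓞 F) R
    rw [hA, map_mul, map_pow, hR] at h
    exact h.symm
  have hfin : Module.finrank (𝓞 K) (𝓞 F) = Nat.card (F ≃ₐ[K] F) :=
    (IsGaloisGroup.card_eq_finrank' (F ≃ₐ[K] F) (𝓞 K) (𝓞 F)).symm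
  have hcardle : Nat.card (F ≃ₐ[K] F) ≤ q - 1 := by
    have hμF := hμ.map_of_injective (f := algebraMap (𝓞 F) F) RingOfIntegers.coe_injective
    refine (Nat.card_le_card_of_injective _ (hμF.autToPow_injective K)).trans_eq ?_
    rw [Nat.card_eq_fintype_card, ZMod.card_units q]
  have hQq : q ≤ Ideal.absNorm Q := by
    have h0 : Ideal.absNorm Q ≠ 0 := fun h ↦ hQbot (Ideal.absNorm_eq_zero_iff.mp h)
    have h1 : Ideal.absNorm Q ≠ 1 := fun h ↦ hQmax.ne_top (Ideal.absNorm_eq_one_iff.mp h)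
    have hdvd : Ideal.absNorm Q ∣ q ^ Module.finrank ℚ F := by
      have := Ideal.absNorm_dvd_absNorm_of_le ((Ideal.span_singleton_le_iff_mem Q).mpr hqQ)
      rwa [Ideal.absNorm_span_singleton, show (q : 𝓞 F) = algebraMap ℤ (𝓞 F) q by simp,
        Algebra.norm_algebraMap, RingOfIntegers.rank, Int.natAbs_pow, Int.natAbs_natCast] at this
    obtain ⟨j, -, hj⟩ := (Nat.dvd_prime_pow hq.out).mp hdvd
    rw [hj]
    exact Nat.le_self_pow (fun h ↦ h1 (by rw [hj, h, pow_zero])) q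
  have hA1 : 1 ≤ Ideal.absNorm A := Nat.one_le_iff_ne_zero.mpr fun h ↦
    hA0 (Ideal.absNorm_eq_zero_iff.mp h)
  have hle : q ^ e * Ideal.absNorm A ≤ q ^ Nat.card (F ≃ₐ[K] F) := by
    rw [← hfin, hN]; exact Nat.mul_le_mul_right _ (Nat.pow_le_pow_left hQq e)
  have hee : e = q - 1 ∧ Nat.card (F ≃ₐ[K] F) = q - 1 ∧ idealExp Q (Ideal.span {μ - 1}) = 1 := by
    have h1 : e ≤ Nat.card (F ≃ₐ[K] F) := (Nat.pow_le_pow_iff_right hq.out.one_lt).mp
      (le_trans (Nat.le_mul_of_pos_right _ hA1) hle)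
    have h2 : q - 1 ≤ e := he1 ▸ Nat.le_mul_of_pos_right _ hπ1
    refine ⟨by omega, by omega, ?_⟩
    have h3 : (q - 1) * idealExp Q (Ideal.span {μ - 1}) = (q - 1) * 1 := by omega
    exact Nat.eq_of_mul_eq_mul_left (by omega) h3
  obtain ⟨hee1, hee2, hee3⟩ := hee
  rw [hfin, hee2, hee1] at hN
  have hNQ : Ideal.absNorm Q = q := by
    refine le_antisymm ?_ hQq
    refine (Nat.pow_le_pow_iff_left (by omega : q - 1 ≠ 0)).mp ?_
    exact (Nat.le_mul_of_pos_right _ hA1).trans_eq hN.symm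
  have hAtop : A = ⊤ := by
    rw [hNQ] at hN
    exact Ideal.absNorm_eq_one_iff.mp ((mul_eq_left₀ (pow_ne_zero _ hq.out.ne_zero)).mp hN.symm)
  have hmap : R.map (algebraMap (𝓞 K) (𝓞 F)) = Q ^ (q - 1) := by
    rw [hA, hAtop, ← Ideal.one_eq_top, mul_one, ← he, hee1]
  refine ⟨Q, hQmax.isPrime, hQR, hNQ, hee2, hmap, hee3, fun τ ↦ ?_⟩
  have hle' : Q ^ (q - 1) ≤ τ • Q := by
    rw [← hmap, Ideal.map_le_iff_le_comap]
    exact le_of_eq (Ideal.LiesOver.over (P := τ • Q) (p := R))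
  exact (hQmax.eq_of_le (Ideal.IsPrime.ne_top inferInstance)
    ((inferInstance : (τ • Q).IsPrime).pow_le_iff (by omega) |>.mp hle')).symm

end tower

/-- The element attached to `ζ` and to exponents `n`. -/
def twistedUnit {G : Type*} [Group G] [Fintype G] [MulSemiringAction G (𝓞 K)] (n : G → ℕ)
    (ζ : 𝓞 K) : 𝓞 K :=
  ∏ σ : G, (σ⁻¹ • (1 - ζ)) ^ n σ

/-- Thaine's relation. -/
theorem thaine {G : Type*} [Group G] [Fintype G] [MulSemiringAction G (𝓞 K)]
    (hcard : Fintype.card G = Module.finrank ℚ K) {ζ : 𝓞 K} (hζ : IsPrimitiveRoot ζ p)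
    (h3 : 3 ≤ p) [P.IsPrime] (hP : Ideal.absNorm P = q) (hpP : (p : 𝓞 K) ∉ P)
    (hfree : ∀ σ : G, σ • P = P → σ = 1)
    (ψ : ClassGroup (𝓞 K) →* Multiplicative (ZMod p)) (n : G → ℕ)
    (hψ : ∀ σ : G, idealChar ψ (σ • P) = (n σ : ZMod p) * idealChar ψ P)
    (hne : idealChar ψ P ≠ 0) :
    ∃ x : 𝓞 K, twistedUnit n ζ - x ^ p ∈ P := by
  have hPbot : P ≠ ⊥ := fun h ↦ hq.out.ne_zero (by rw [← hP, h, Ideal.absNorm_bot])
  have hPmax : P.IsMaximal := Ideal.IsPrime.isMaximal ‹_› hPbot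
  have hdvdp : p ∣ q - 1 := by
    have := dvd_sub_one_of_primitiveRoot (P := ⟨P, ‹P.IsPrime›, hPbot⟩) hζ (hP ▸ hq.out) hpP
    rwa [show Ideal.absNorm P = q from hP] at this
  have hq3 : 3 ≤ q := by
    rcases Nat.lt_or_ge q 3 with h | h
    · have := hq.out.two_le
      have : q = 2 := by omega
      subst this
      have := Nat.le_of_dvd one_pos hdvdp
      omega
    · exact h
  let F := CyclotomicField q K
  have : NeZero (q : K) := ⟨Nat.cast_ne_zero.mpr hq.out.ne_zero⟩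
  have : IsCyclotomicExtension {q} K F := CyclotomicField.isCyclotomicExtension q K
  have : NumberField F := IsCyclotomicExtension.numberField {q} K F
  have : IsGalois K F := IsCyclotomicExtension.isGalois {q} K F
  obtain ⟨μ', hμ'⟩ := IsCyclotomicExtension.exists_isPrimitiveRoot K F (S := {q})
    (Set.mem_singleton q) hq.out.ne_zero
  let μ : 𝓞 F := hμ'.toInteger
  have hμ : IsPrimitiveRoot μ q := hμ'.toInteger_isPrimitiveRoot
  have hne' : ∀ σ : G, σ • P ≠ ⊥ := fun σ h ↦ hq.out.ne_zero (by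
    rw [← hP, ← absNorm_smul σ P, h, Ideal.absNorm_bot])
  have hprime : ∀ σ : G, Prime (σ • P) := fun σ ↦ Ideal.prime_of_isPrime (hne' σ) inferInstance
  have hmax : ∀ σ : G, (σ • P).IsMaximal := fun σ ↦
    Ideal.IsPrime.isMaximal inferInstance (hne' σ)
  have hinj : Function.Injective fun σ : G ↦ σ • P := fun a b h ↦ by
    have := hfree (b⁻¹ * a) (by rw [mul_smul, show a • P = b • P from h, inv_smul_smul])
    rw [inv_mul_eq_one.mp this]
  have hspan := prod_orbit_eq_span (G := G) hP hcard hfree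
  have hexp : ∀ σ : G, idealExp (σ • P) (Ideal.span {(q : 𝓞 K)}) = 1 := by
    intro σ
    rw [← hspan, ← Finset.mul_prod_erase _ _ (Finset.mem_univ σ), idealExp_mul _ (hne' σ)
      (Finset.prod_ne_zero_iff.mpr fun τ _ ↦ hne' τ), idealExp_self (hprime σ), idealExp_eq_zero,
      add_zero]
    intro h
    obtain ⟨τ, hτ, h'⟩ := (hprime σ).exists_mem_finset_dvd h
    exact (Finset.ne_of_mem_erase hτ) (hinj ((hmax τ).eq_of_le
      (hmax σ).ne_top (Ideal.le_of_dvd h')))
  have htot : ∀ σ : G, ∃ Q : Ideal (𝓞 F), Q.IsPrime ∧ Q.LiesOver (σ • P) ∧ Ideal.absNorm Q = q ∧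
      Nat.card (F ≃ₐ[K] F) = q - 1 ∧ (σ • P).map (algebraMap (𝓞 K) (𝓞 F)) = Q ^ (q - 1) ∧
      idealExp Q (Ideal.span {μ - 1}) = 1 ∧ ∀ τ : F ≃ₐ[K] F, τ • Q = Q := fun σ ↦
    @totallyRamified K _ _ q hq F _ _ _ _ _ μ hμ hq3 (σ • P) (hmax σ)
      (by rw [absNorm_smul, hP]) (hexp σ)
  choose Q hQprime hQover hQnorm hQcard hQmap hQπ hQfix using htot
  have hGcard : Nat.card (F ≃ₐ[K] F) = q - 1 := hQcard 1
  have hbij : Function.Bijective (hμ'.autToPow K) := by
    rw [Nat.bijective_iff_injective_and_card]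
    exact ⟨hμ'.autToPow_injective K, by rw [hGcard, Nat.card_eq_fintype_card, ZMod.card_units q]⟩
  have : IsCyclic (F ≃ₐ[K] F) :=
    isCyclic_of_injective (hμ'.autToPow K) hbij.injective
  obtain ⟨g, hg⟩ := IsCyclic.exists_generator (α := F ≃ₐ[K] F)
  set t : ℕ := (hμ'.autToPow K g : ZMod q).val
  have hgμ : g • μ = μ ^ t := RingOfIntegers.ext (hμ'.autToPow_spec K g).symm
  have htgen : ∀ x : (ZMod q)ˣ, ∃ k : ℕ, (t : ZMod q) ^ k = (x : ZMod q) := by
    intro x
    obtain ⟨τ, rfl⟩ := hbij.surjective x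
    obtain ⟨k, rfl⟩ := (mem_powers_iff_mem_zpowers).mpr (hg τ)
    exact ⟨k, by rw [map_pow, Units.val_pow_eq_pow_val, ZMod.natCast_val, ZMod.cast_id]⟩
  set a : 𝓞 F := algebraMap (𝓞 K) (𝓞 F) ζ
  set ε : 𝓞 F := 1 - a * μ
  have hζ1 : ζ ≠ 1 := hζ.ne_one hp.out.one_lt
  have hprod : ∏ τ : F ≃ₐ[K] F, τ • ε = 1 := by
    have hterm : ∀ τ : F ≃ₐ[K] F, τ • ε = 1 - a * μ ^ (hμ'.autToPow K τ : ZMod q).val := fun τ ↦ by
      rw [smul_sub, smul_one, smul_mul',
        show τ • a = a from smul_algebraMap τ ζ,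
        show τ • μ = μ ^ (hμ'.autToPow K τ : ZMod q).val from
          RingOfIntegers.ext (hμ'.autToPow_spec K τ).symm]
    rw [Finset.prod_congr rfl fun τ _ ↦ hterm τ,
      Finset.prod_bij (t := (Finset.range q).erase 0) (g := fun i ↦ 1 - a * μ ^ i)
        (fun τ _ ↦ (hμ'.autToPow K τ : ZMod q).val)
        (fun τ _ ↦ Finset.mem_erase.mpr ⟨fun h0 ↦ (hμ'.autToPow K τ).ne_zero
          ((ZMod.val_eq_zero _).mp h0), Finset.mem_range.mpr (ZMod.val_lt _)⟩)
        (fun _ _ _ _ h ↦ hbij.injective (Units.ext (ZMod.val_injective q h)))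
        (fun i hi ↦ by
          obtain ⟨h0, hi⟩ := Finset.mem_erase.mp hi
          rw [Finset.mem_range] at hi
          have hu : IsUnit (i : ZMod q) := Ne.isUnit fun h ↦ h0 (by
            rw [ZMod.natCast_eq_zero_iff] at h
            exact Nat.eq_zero_of_dvd_of_lt h hi)
          obtain ⟨τ, hτ⟩ := hbij.surjective hu.unit
          exact ⟨τ, Finset.mem_univ _, by rw [hτ, IsUnit.unit_spec, ZMod.val_natCast, Nat.mod_eq_of_lt hi]⟩)
        fun _ _ ↦ rfl]
    have hR := prod_range_one_sub_mul hμ hq.out.pos a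
    have haq : a ^ q = a := by
      obtain ⟨k, hk⟩ := hdvdp
      have hq1 : q = p * k + 1 := by omega
      calc a ^ q = a ^ (p * k + 1) := congrArg (a ^ ·) hq1
        _ = a := by rw [pow_succ, pow_mul, ← map_pow, hζ.pow_eq_one, map_one, one_pow, one_mul]
    rw [← Finset.mul_prod_erase _ _ (Finset.mem_range.mpr hq.out.pos), pow_zero, mul_one, haq] at hR
    refine (mul_eq_left₀ (sub_ne_zero.mpr fun h1 ↦ hζ1 ?_)).mp hR
    exact FaithfulSMul.algebraMap_injective (𝓞 K) (𝓞 F) (by rw [map_one]; exact h1.symm)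
  have hnorm : Algebra.norm K (ε : F) = 1 := by
    refine (algebraMap K F).injective ?_
    rw [Algebra.norm_eq_prod_automorphisms, map_one]
    have := congrArg (algebraMap (𝓞 F) F) hprod
    rw [map_prod, map_one] at this
    exact this
  obtain ⟨β, hβ0, hβ⟩ : ∃ β : 𝓞 F, β ≠ 0 ∧ ε * (g • β) = β := by
    obtain ⟨β, h0, h⟩ := groupCohomology.exists_mul_galRestrict_of_norm_eq_one (A := 𝓞 K) (K := K)
      (L := F) (B := 𝓞 F) hg (η := ε) hnorm
    refine ⟨β, h0, ?_⟩
    convert h using 2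
    apply RingOfIntegers.ext
    exact (algebraMap_galRestrict_apply (𝓞 K) g β).symm
  set J := Ideal.span {β} with hJdef
  have hJ0 : J ≠ ⊥ := by simpa [J] using hβ0
  have hεunit : IsUnit ε := by
    refine IsUnit.of_mul_eq_one (∏ τ ∈ Finset.univ.erase (1 : F ≃ₐ[K] F), τ • ε) ?_
    have h := Finset.mul_prod_erase Finset.univ (fun τ : F ≃ₐ[K] F ↦ τ • ε) (Finset.mem_univ 1)
    rw [one_smul] at h
    exact h.trans hprod
  have hJg : ∀ τ : F ≃ₐ[K] F, Ideal.span {τ • β} = J := by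
    intro τ
    obtain ⟨k, rfl⟩ := (mem_powers_iff_mem_zpowers).mpr (hg τ)
    show Ideal.span {(g ^ k) • β} = J
    induction k with
    | zero => rw [pow_zero, one_smul]
    | succ k ih =>
      rw [Ideal.span_singleton_eq_span_singleton] at ih ⊢
      have h1 : Associated (g • β) β := ⟨hεunit.unit, by rw [mul_comm]; exact hβ⟩
      have h2 := h1.map (MulSemiringAction.toRingHom (F ≃ₐ[K] F) (𝓞 F) (g ^ k))
      rw [MulSemiringAction.toRingHom_apply, MulSemiringAction.toRingHom_apply, ← mul_smul,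
        ← pow_succ] at h2
      exact h2.trans ih
  set γ : 𝓞 K := RingOfIntegers.norm K β with hγdef
  have hγprod : algebraMap (𝓞 K) (𝓞 F) γ = ∏ τ : F ≃ₐ[K] F, τ • β := by
    apply RingOfIntegers.ext
    show algebraMap (𝓞 F) F _ = algebraMap (𝓞 F) F (∏ τ : F ≃ₐ[K] F, τ • β)
    rw [map_prod]
    refine (RingOfIntegers.coe_algebraMap_norm K β).trans ?_
    rw [Algebra.norm_eq_prod_automorphisms]
    rfl
  have hγ0 : γ ≠ 0 := fun h ↦ by
    rw [h, map_zero, eq_comm, Finset.prod_eq_zero_iff] at hγprod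
    obtain ⟨τ, -, hτ⟩ := hγprod
    exact hβ0 (by simpa using congrArg (τ⁻¹ • ·) hτ)
  have hγmap : (Ideal.span {γ}).map (algebraMap (𝓞 K) (𝓞 F)) = J ^ (q - 1) := by
    rw [Ideal.map_span, Set.image_singleton, hγprod, ← Ideal.prod_span_singleton,
      Finset.prod_congr rfl fun τ _ ↦ hJg τ, Finset.prod_const, Finset.card_univ,
      ← Nat.card_eq_fintype_card, hGcard]
  have hγbot : Ideal.span {γ} ≠ ⊥ := by simpa using hγ0
  set k : G → ℕ := fun σ ↦ idealExp (σ • P) (Ideal.span {γ}) with hkdef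
  have hk : ∀ σ : G, idealExp (Q σ) J = k σ := by
    intro σ
    have := hmax σ
    have := hQprime σ
    have := hQover σ
    have hQbot : Q σ ≠ ⊥ := fun h ↦ hq.out.ne_zero (by rw [← hQnorm σ, h, Ideal.absNorm_bot])
    have h := idealExp_map (F := F) (Q := Q σ) (hne' σ) hγbot
    rw [hγmap, idealExp_pow, hQmap, idealExp_pow, idealExp_self (Ideal.prime_of_isPrime hQbot
      (hQprime σ)), mul_one] at h
    exact Nat.eq_of_mul_eq_mul_left (by omega) h
  have hcong : ∀ σ : G, (1 - ζ) * (t : 𝓞 K) ^ k σ - 1 ∈ σ • P := by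
    intro σ
    have := hmax σ
    have := hQprime σ
    have := hQover σ
    have hQbot : Q σ ≠ ⊥ := fun h ↦ hq.out.ne_zero (by rw [← hQnorm σ, h, Ideal.absNorm_bot])
    have hQpr := Ideal.prime_of_isPrime hQbot (hQprime σ)
    have hπ0 : Ideal.span {μ - 1} ≠ ⊥ := by
      simpa [sub_eq_zero] using hμ.ne_one hq.out.one_lt
    obtain ⟨B, hB, hQB, hB0⟩ := exists_eq_pow_idealExp_mul hQpr hπ0
    rw [hQπ σ, pow_one] at hB
    obtain ⟨w, hwB, hwQ⟩ : ∃ w, w ∈ B ^ k σ ∧ w ∉ Q σ := by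
      by_contra! h
      rcases Nat.eq_zero_or_pos (k σ) with h0 | h0
      · exact (hQprime σ).ne_top ((Ideal.eq_top_iff_one _).mpr (h 1 (by rw [h0, pow_zero, Ideal.one_eq_top]; trivial)))
      · exact hQB (Ideal.dvd_iff_le.mpr (((hQprime σ).pow_le_iff h0.ne').mp h))
    obtain ⟨A, hA, hQA, -⟩ := exists_eq_pow_idealExp_mul hQpr hJ0
    rw [hk σ] at hA
    have hmem : β * w ∈ Q σ ^ k σ * B ^ k σ := Ideal.mul_mem_mul
      ((hA.le.trans Ideal.mul_le_left) (Ideal.mem_span_singleton_self β)) hwB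
    rw [← mul_pow, ← hB, Ideal.span_singleton_pow, Ideal.mem_span_singleton] at hmem
    obtain ⟨b, hb⟩ := hmem
    have hbQ : b ∉ Q σ := by
      intro hbQ
      have h1 : β * w ∈ Q σ ^ (k σ + 1) := by
        rw [hb, pow_succ]
        refine Ideal.mul_mem_mul (Ideal.pow_mem_pow ?_ _) hbQ
        exact (hB.le.trans Ideal.mul_le_left) (Ideal.mem_span_singleton_self _)
      rw [← Ideal.span_singleton_le_iff_mem, ← Ideal.span_singleton_mul_span_singleton,
        ← Ideal.dvd_iff_le, ← hJdef, hA, mul_assoc, pow_succ,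
        mul_dvd_mul_iff_left (pow_ne_zero _ hQpr.ne_zero)] at h1
      rcases hQpr.dvd_or_dvd h1 with h2 | h2
      · exact hQA h2
      · exact hwQ (Ideal.dvd_span_singleton.mp h2)
    set u : 𝓞 F := ∑ i ∈ Finset.range t, μ ^ i with hu
    have hgπ : g • (μ - 1) = (μ - 1) * u := by
      rw [smul_sub, smul_one, hgμ, hu, mul_geom_sum]
    have hμQ : μ - 1 ∈ Q σ := (hB.le.trans Ideal.mul_le_left) (Ideal.mem_span_singleton_self _)
    have huQ : u - t ∈ Q σ := by
      rw [hu, show (t : 𝓞 F) = ∑ _i ∈ Finset.range t, (1 : 𝓞 F) by simp, ← Finset.sum_sub_distrib]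
      exact sum_mem fun i _ ↦ Ideal.mem_of_dvd _ (sub_one_dvd_pow_sub_one μ i) hμQ
    have hfix : ∀ x : 𝓞 F, g • x - x ∈ Q σ := by
      intro x
      obtain ⟨m, hm⟩ := exists_natCast_sub_mem (hQnorm σ) x
      have h1 : g • (x - m) ∈ Q σ := hQfix σ g ▸ Ideal.smul_mem_pointwise_smul g _ _ hm
      have h2 : g • (x - (m : 𝓞 F)) = g • x - m := by
        rw [smul_sub, ← MulSemiringAction.toRingHom_apply _ (𝓞 F) g (m : 𝓞 F), map_natCast]
      rw [h2] at h1
      simpa using sub_mem h1 hm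
    have heq : (g • w) * b = ε * u ^ k σ * (g • b) * w := by
      refine mul_left_cancel₀ (pow_ne_zero (k σ) (sub_ne_zero.mpr (hμ.ne_one hq.out.one_lt))) ?_
      have h1 : (g • β) * (g • w) = (g • (μ - 1)) ^ k σ * (g • b) := by
        rw [← smul_mul', hb, smul_mul', smul_pow']
      calc (μ - 1) ^ k σ * ((g • w) * b) = ((μ - 1) ^ k σ * b) * (g • w) := by ring
        _ = β * w * (g • w) := by rw [hb]
        _ = ε * ((g • β) * (g • w)) * w := by
            conv_lhs => rw [← hβ]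
            ring
        _ = _ := by rw [h1, hgπ, mul_pow]; ring
    have hmodeq : (g • w) * b - ε * u ^ k σ * (g • b) * w = 0 := sub_eq_zero.mpr heq
    have hmain : (1 - a) * (t : 𝓞 F) ^ k σ - 1 ∈ Q σ := by
      have hmk : ∀ x y : 𝓞 F, x - y ∈ Q σ → Ideal.Quotient.mk (Q σ) x = Ideal.Quotient.mk (Q σ) y :=
        fun x y h ↦ Ideal.Quotient.eq.mpr h
      have hq0 : ∀ x : 𝓞 F, x ∉ Q σ → Ideal.Quotient.mk (Q σ) x ≠ 0 := fun x hx h ↦
        hx (Ideal.Quotient.eq_zero_iff_mem.mp h)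
      have e1 := congrArg (Ideal.Quotient.mk (Q σ)) heq
      have e2 : Ideal.Quotient.mk (Q σ) μ = 1 := by rw [hmk μ 1 hμQ, map_one]
      simp only [map_mul, map_pow, hmk _ _ (hfix w), hmk _ _ (hfix b), hmk _ _ huQ, ε, map_sub,
        map_one, e2, mul_one] at e1
      rw [← Ideal.Quotient.eq]
      simp only [map_mul, map_pow, map_sub, map_one]
      refine mul_right_cancel₀ (mul_ne_zero (hq0 b hbQ) (hq0 w hwQ)) ?_
      rw [one_mul]
      linear_combination -e1
    rw [Ideal.LiesOver.over (P := Q σ) (p := σ • P), Ideal.mem_under, map_sub, map_mul, map_pow,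
      map_natCast, map_sub, map_one]
    exact hmain
  have hzero : (∑ σ : G, (k σ : ZMod p) * (n σ : ZMod p)) * idealChar ψ P = 0 := by
    have h := idealChar_eq_sum ψ hγbot
    rw [idealChar_principal ψ hγ0] at h
    rw [Finset.sum_mul]
    refine Eq.trans ?_ h.symm
    set T := (normalizedFactors (Ideal.span {γ})).toFinset
    calc ∑ σ : G, (k σ : ZMod p) * (n σ : ZMod p) * idealChar ψ P
        = ∑ R ∈ Finset.univ.image (fun σ : G ↦ σ • P),
            (idealExp R (Ideal.span {γ}) : ZMod p) * idealChar ψ R := by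
          rw [Finset.sum_image hinj.injOn]
          exact Finset.sum_congr rfl fun σ _ ↦ by rw [hψ σ, mul_assoc, hkdef]
      _ = ∑ R ∈ T, (idealExp R (Ideal.span {γ}) : ZMod p) * idealChar ψ R := by
          refine Eq.trans (Finset.sum_subset (Finset.subset_union_left (s₂ := T)) ?_)
            (Finset.sum_subset (Finset.subset_union_right (s₁ := Finset.univ.image (fun σ : G ↦ σ • P))) ?_).symm
          on_goal 2 =>
            intro R _ hR
            rw [show idealExp R (Ideal.span {γ}) = 0 from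
              Multiset.count_eq_zero.mpr fun h ↦ hR (Multiset.mem_toFinset.mpr h)]
            simp
          · intro R hR hR'
            have hRT : R ∈ T := (Finset.mem_union.mp hR).resolve_left hR'
            have hpr := prime_of_normalized_factor R (Multiset.mem_toFinset.mp hRT)
            have : R.IsPrime := Ideal.isPrime_of_prime hpr
            have hRmax : R.IsMaximal := Ideal.IsPrime.isMaximal ‹_› hpr.ne_zero
            have hqR : (q : 𝓞 K) ∉ R := by
              intro hmem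
              have hdvd : R ∣ ∏ σ : G, σ • P := hspan ▸ Ideal.dvd_span_singleton.mpr hmem
              obtain ⟨σ, -, hσ⟩ := hpr.exists_mem_finset_dvd hdvd
              exact hR' (Finset.mem_image.mpr ⟨σ, Finset.mem_univ σ,
                (hmax σ).eq_of_le hRmax.ne_top (Ideal.le_of_dvd hσ)⟩)
            obtain ⟨Q', hQ'max, hQ'R⟩ :=
              Ideal.exists_maximal_ideal_liesOver_of_isIntegral (S := 𝓞 F) R
            have he := idealExp_map (F := F) (Q := Q') hpr.ne_zero hγbot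
            rw [idealExp_map_self_eq_one (q := q) hμ (Q := Q') hpr.ne_zero hqR, hγmap,
              idealExp_pow, one_mul] at he
            rw [← he, Nat.cast_mul, (ZMod.natCast_eq_zero_iff _ _).mpr hdvdp]
            simp
  have hsum : p ∣ ∑ σ : G, k σ * n σ := by
    rw [← ZMod.natCast_eq_zero_iff]
    push_cast
    exact (mul_eq_zero.mp hzero).resolve_right hne
  obtain ⟨l, hl⟩ := hsum
  refine ⟨(t : 𝓞 K) ^ ((q - 2) * l), ?_⟩
  have htP : (t : 𝓞 K) ^ (q - 1) - 1 ∈ P := by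
    refine pow_sub_one_sub_one_mem hP fun h ↦ ?_
    have h1 : q ∣ t := by
      have := Ideal.absNorm_dvd_absNorm_of_le ((Ideal.span_singleton_le_iff_mem P).mpr h)
      rw [hP, Ideal.absNorm_span_singleton, show (t : 𝓞 K) = algebraMap ℤ (𝓞 K) t by simp,
        Algebra.norm_algebraMap, Int.natAbs_pow, Int.natAbs_natCast] at this
      exact hq.out.dvd_of_dvd_pow this
    have h2 := Nat.eq_zero_of_dvd_of_lt h1 (ZMod.val_lt _)
    rw [ZMod.val_eq_zero] at h2
    exact (hμ'.autToPow K g).ne_zero h2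
  rw [← Ideal.Quotient.eq, twistedUnit, map_prod]
  set f := Ideal.Quotient.mk P
  have hft : f (t : 𝓞 K) ^ (q - 1) = 1 := by
    rw [← map_pow, ← map_one f]; exact Ideal.Quotient.eq.mpr htP
  have hterm : ∀ σ : G, f (σ⁻¹ • (1 - ζ)) * f (t : 𝓞 K) ^ k σ = 1 := by
    intro σ
    have h := Ideal.smul_mem_pointwise_smul σ⁻¹ _ _ (hcong σ)
    rw [inv_smul_smul, smul_sub, smul_one, smul_mul', smul_pow',
      show σ⁻¹ • (t : 𝓞 K) = t by
        rw [← MulSemiringAction.toRingHom_apply _ (𝓞 K) σ⁻¹ (t : 𝓞 K), map_natCast]] at h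
    rw [← map_pow, ← map_mul, ← map_one f]
    exact Ideal.Quotient.eq.mpr h
  have h1 : (∏ σ : G, f ((σ⁻¹ • (1 - ζ)) ^ n σ)) * f (t : 𝓞 K) ^ (p * l) = 1 := by
    rw [← hl, ← Finset.prod_pow_eq_pow_sum, ← Finset.prod_mul_distrib]
    refine Finset.prod_eq_one fun σ _ ↦ ?_
    rw [map_pow, pow_mul, ← mul_pow, hterm, one_pow]
  rw [map_pow, map_pow, ← pow_mul]
  calc (∏ σ : G, f ((σ⁻¹ • (1 - ζ)) ^ n σ))
      = (∏ σ : G, f ((σ⁻¹ • (1 - ζ)) ^ n σ)) * (f (t : 𝓞 K) ^ (q - 1)) ^ (p * l) := by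
        rw [hft, one_pow, mul_one]
    _ = ((∏ σ : G, f ((σ⁻¹ • (1 - ζ)) ^ n σ)) * f (t : 𝓞 K) ^ (p * l)) *
          f (t : 𝓞 K) ^ ((q - 2) * (p * l)) := by
        rw [← pow_mul, mul_assoc, ← pow_add]
        congr 2
        obtain ⟨m, rfl⟩ : ∃ m, q = m + 2 := ⟨q - 2, by omega⟩
        simp only [Nat.add_sub_cancel, show m + 2 - 1 = m + 1 by omega]
        ring
    _ = _ := by rw [h1, one_mul]; congr 1; ring

end Fermat.Agent.ClassField
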